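/-
S48 wall (W), block G, part G-PORT / P6 Kron, seat K2 EMB (helper42): ABSTRACT layer.

Setting: `K` a field of characteristic `0`, `L` an ambient field over `K` with an expansion
homomorphism `e : L →ₐ[K] K((u))`, `θ : K((q)) →ₐ[K] K((u))` a substitution (`q ↦ u^m`),
`F₀ = ℚ(G) ⊆ ℚ((q))` a field of rational `q`-series given by generators `G`.
If `θ g` is the expansion of an element of `L` for every generator `g ∈ G`, then
`F = K · F₀` embeds in `L` by `emb = e⁻¹ ∘ θ`; the image is the field generated by the
elements with expansions `θ g`, and an automorphism of `L` fixes the image as soon as it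
fixes these elements.  (Abstract form of `S24/EmbFHom.lean`.)
-/
import Mathlib
import Fermat.Prelude.Def_ModularCurve_LaurentCoeff

set_option autoImplicit false

noncomputable section

namespace Fermat.Agent.S48WKron

open ModularCurve IntermediateField

section Abs

variable {K L : Type*} [Field K] [Algebra ℚ K] [Field L] [Algebra K L]
variable (e : L →ₐ[K] LaurentSeries K) (θ : LaurentSeries K →ₐ[K] LaurentSeries K)
variable (G : Set (LaurentSeries ℚ))

/-- the hypothesis on the generators: `θ g` is an expansion. -/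
def GenInRange : Prop := ∀ g ∈ G, θ (coeffEmb K g) ∈ e.fieldRange

variable {e θ G}

theorem theta_coeffEmb_mem_fieldRange (hG : GenInRange e θ G) {x : LaurentSeries ℚ}
    (hx : x ∈ IntermediateField.adjoin ℚ G) : θ (coeffEmb K x) ∈ e.fieldRange := by
  induction hx using IntermediateField.adjoin_induction with
  | mem x hx => exact hG x hx
  | algebraMap c =>
    have h1 : θ (coeffEmb K (algebraMap ℚ (LaurentSeries ℚ) c)) =
        ((c : ℚ) : LaurentSeries K) := by
      rw [eq_ratCast, map_ratCast, map_ratCast]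
    rw [h1]
    exact SubfieldClass.ratCast_mem _ c
  | add x y _ _ hx hy =>
    rw [map_add, map_add]
    exact add_mem hx hy
  | inv x _ hx =>
    rw [map_inv₀, map_inv₀]
    exact inv_mem hx
  | mul x y _ _ hx hy =>
    rw [map_mul, map_mul]
    exact mul_mem hx hy

theorem theta_mem_fieldRange (hG : GenInRange e θ G) {x : LaurentSeries K}
    (hx : x ∈ laurentBaseChange K (IntermediateField.adjoin ℚ G)) : θ x ∈ e.fieldRange := by
  unfold laurentBaseChange at hx
  induction hx using IntermediateField.adjoin_induction with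
  | mem x hx =>
    obtain ⟨y, hy, rfl⟩ := hx
    exact theta_coeffEmb_mem_fieldRange hG hy
  | algebraMap c =>
    rw [AlgHom.commutes]
    exact e.fieldRange.algebraMap_mem c
  | add x y _ _ hx hy =>
    rw [map_add]
    exact add_mem hx hy
  | inv x _ hx =>
    rw [map_inv₀]
    exact inv_mem hx
  | mul x y _ _ hx hy =>
    rw [map_mul]
    exact mul_mem hx hy

/-- the embedding `emb = e⁻¹ ∘ θ` of `F = K · ℚ(G)` in the ambient field `L`. -/
def embAbs (hG : GenInRange e θ G) :
    ↥(laurentBaseChange K (IntermediateField.adjoin ℚ G)) →ₐ[K] L :=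
  ((AlgEquiv.ofInjectiveField e).symm : ↥e.range →ₐ[K] L).comp
    ((θ.comp (laurentBaseChange K (IntermediateField.adjoin ℚ G)).val).codRestrict
      e.range (fun x => (AlgHom.mem_range e).mpr
        (AlgHom.mem_fieldRange.mp (theta_mem_fieldRange hG x.2))))

/-- `e (emb x) = θ x`. -/
theorem e_embAbs (hG : GenInRange e θ G)
    (x : ↥(laurentBaseChange K (IntermediateField.adjoin ℚ G))) :
    e (embAbs hG x) = θ (x : LaurentSeries K) := by
  set z : ↥e.range := ⟨θ (x : LaurentSeries K), (AlgHom.mem_range e).mpr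
    (AlgHom.mem_fieldRange.mp (theta_mem_fieldRange hG x.2))⟩ with hz
  have h1 : embAbs hG x = (AlgEquiv.ofInjectiveField e).symm z := rfl
  have h2 : ((AlgEquiv.ofInjectiveField e) ((AlgEquiv.ofInjectiveField e).symm z) :
      LaurentSeries K) = (z : LaurentSeries K) := by
    rw [AlgEquiv.apply_symm_apply]
  rw [h1]
  exact h2

omit [Algebra ℚ K] in
theorem e_injective : Function.Injective e := e.toRingHom.injective

/-- `emb` is determined by its expansion. -/
theorem embAbs_eq_iff (hG : GenInRange e θ G)
    (x : ↥(laurentBaseChange K (IntermediateField.adjoin ℚ G))) (y : L) :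
    embAbs hG x = y ↔ e y = θ (x : LaurentSeries K) := by
  constructor
  · rintro rfl
    exact e_embAbs hG x
  · intro h
    apply e_injective (e := e)
    rw [e_embAbs, h]

/-- the elements of `L` whose expansion is `θ g`, `g ∈ G`. -/
def genSetAbs (e : L →ₐ[K] LaurentSeries K) (θ : LaurentSeries K →ₐ[K] LaurentSeries K)
    (G : Set (LaurentSeries ℚ)) : Set L :=
  {y | ∃ g ∈ G, e y = θ (coeffEmb K g)}

/-- the field generated by them. -/
def genFieldAbs (e : L →ₐ[K] LaurentSeries K) (θ : LaurentSeries K →ₐ[K] LaurentSeries K)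
    (G : Set (LaurentSeries ℚ)) : IntermediateField K L :=
  IntermediateField.adjoin K (genSetAbs e θ G)

theorem map_e_genFieldAbs_le :
    (genFieldAbs e θ G).map e ≤
      (laurentBaseChange K (IntermediateField.adjoin ℚ G)).map θ := by
  unfold genFieldAbs
  rw [IntermediateField.adjoin_map, IntermediateField.adjoin_le_iff]
  rintro _ ⟨y, ⟨g, hg, hy⟩, rfl⟩
  rw [hy]
  exact (IntermediateField.mem_map _).mpr
    ⟨_, coeffEmb_mem_laurentBaseChange K (IntermediateField.subset_adjoin ℚ G hg), rfl⟩

theorem theta_coeffEmb_mem_map (hG : GenInRange e θ G) {x : LaurentSeries ℚ}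
    (hx : x ∈ IntermediateField.adjoin ℚ G) :
    θ (coeffEmb K x) ∈ (genFieldAbs e θ G).map e := by
  induction hx using IntermediateField.adjoin_induction with
  | mem x hx =>
    obtain ⟨y, hy⟩ := hG x hx
    exact (IntermediateField.mem_map _).mpr
      ⟨y, IntermediateField.subset_adjoin K _ ⟨x, hx, hy⟩, hy⟩
  | algebraMap c =>
    have h1 : θ (coeffEmb K (algebraMap ℚ (LaurentSeries ℚ) c)) =
        ((c : ℚ) : LaurentSeries K) := by
      rw [eq_ratCast, map_ratCast, map_ratCast]
    rw [h1]
    exact SubfieldClass.ratCast_mem _ c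
  | add x y _ _ hx hy =>
    rw [map_add, map_add]
    exact add_mem hx hy
  | inv x _ hx =>
    rw [map_inv₀, map_inv₀]
    exact inv_mem hx
  | mul x y _ _ hx hy =>
    rw [map_mul, map_mul]
    exact mul_mem hx hy

theorem map_theta_le (hG : GenInRange e θ G) :
    (laurentBaseChange K (IntermediateField.adjoin ℚ G)).map θ ≤ (genFieldAbs e θ G).map e := by
  unfold laurentBaseChange
  rw [IntermediateField.adjoin_map, IntermediateField.adjoin_le_iff]
  rintro _ ⟨_, ⟨x, hx, rfl⟩, rfl⟩
  exact theta_coeffEmb_mem_map hG hx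

/-- the values of `emb` lie in the field generated by the `y_g`. -/
theorem embAbs_mem (hG : GenInRange e θ G)
    (x : ↥(laurentBaseChange K (IntermediateField.adjoin ℚ G))) :
    embAbs hG x ∈ genFieldAbs e θ G := by
  have h1 : θ (x : LaurentSeries K) ∈ (genFieldAbs e θ G).map e :=
    map_theta_le hG ((IntermediateField.mem_map _).mpr ⟨_, x.2, rfl⟩)
  obtain ⟨y, hy, hxy⟩ := (IntermediateField.mem_map _).mp h1
  have h2 : embAbs hG x = y := (embAbs_eq_iff hG x y).mpr hxy
  rw [h2]
  exact hy

/-- every element of the field generated by the `y_g` is a value of `emb`. -/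
theorem exists_embAbs_eq (hG : GenInRange e θ G) {y : L} (hy : y ∈ genFieldAbs e θ G) :
    ∃ x : ↥(laurentBaseChange K (IntermediateField.adjoin ℚ G)), embAbs hG x = y := by
  have h1 : e y ∈ (laurentBaseChange K (IntermediateField.adjoin ℚ G)).map θ :=
    map_e_genFieldAbs_le ((IntermediateField.mem_map _).mpr ⟨y, hy, rfl⟩)
  obtain ⟨x, hx, hxy⟩ := (IntermediateField.mem_map _).mp h1
  exact ⟨⟨x, hx⟩, (embAbs_eq_iff hG _ y).mpr hxy.symm⟩

/-- the value of `emb` on a generator. -/
theorem embAbs_gen (hG : GenInRange e θ G) {g : LaurentSeries ℚ} (hg : g ∈ G) {y : L}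
    (hy : e y = θ (coeffEmb K g)) :
    embAbs hG ⟨coeffEmb K g,
      coeffEmb_mem_laurentBaseChange K (IntermediateField.subset_adjoin ℚ G hg)⟩ = y :=
  (embAbs_eq_iff hG _ y).mpr hy

section Action

variable {Γ : Type*} [Group Γ] [MulSemiringAction Γ L] [SMulCommClass Γ K L]

theorem smul_eq_of_mem_genFieldAbs (γ : Γ) (h : ∀ y ∈ genSetAbs e θ G, γ • y = y) {y : L}
    (hy : y ∈ genFieldAbs e θ G) : γ • y = y := by
  unfold genFieldAbs at hy
  induction hy using IntermediateField.adjoin_induction with
  | mem x hx => exact h x hx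
  | algebraMap c => rw [Algebra.algebraMap_eq_smul_one, smul_comm, smul_one]
  | add x y _ _ hx hy => rw [smul_add, hx, hy]
  | inv x _ hx => rw [smul_inv'', hx]
  | mul x y _ _ hx hy => rw [smul_mul', hx, hy]

/-- **stabiliser, abstract form**: `γ` fixes the image of `emb` iff it fixes the `y_g`. -/
theorem smul_embAbs_iff (hG : GenInRange e θ G) (γ : Γ) :
    (∀ x : ↥(laurentBaseChange K (IntermediateField.adjoin ℚ G)),
        γ • embAbs hG x = embAbs hG x) ↔
      ∀ y ∈ genSetAbs e θ G, γ • y = y := by
  constructor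
  · intro h y hy
    obtain ⟨x, hx⟩ := exists_embAbs_eq hG (IntermediateField.subset_adjoin K _ hy)
    have h1 := h x
    rwa [hx] at h1
  · intro h x
    exact smul_eq_of_mem_genFieldAbs γ h (embAbs_mem hG x)

end Action

end Abs

end Fermat.Agent.S48WKron
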