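/-
S48 wall (W), block G, part G-PORT, seat P6 Kron, sub-seat K0 AMB (helper24).

THE AMBIENT FIELD OVER `ℚ̄` (port of helper36's `S48/W/A/Dict/Amb.lean`, which is over `ℂ`, to the
setting of S24):

`AHb M` = all functions on `ℍ` which are holomorphic, invariant under `Γ(M)`, and such that every
`SL(2,ℤ)`-translate has a Laurent expansion at `∞` in `u = exp(2πiτ/M)` WITH COEFFICIENTS IN `ℚ̄`.
It is defined by PROPERTIES, so it contains the ring `AL M` of S24 (generated by the `γ • j_d`) and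
(seat K1) the Fricke functions.  `LHb M = Frac (AHb M)`, with its `SL(2,ℤ)`-action, the expansion
`expLHb M : LHb M →ₐ[ℚ̄] ℚ̄((u))` (injective), and the invariants `LHb M ^ SL(2,ℤ) = ℚ̄(j)`
(from hub A1, `S48WA1.invariant`).  This is the Galois datum `(SL(2,ℤ), LHb M, ℚ̄(j))` in which
the conjugates of `y(q^p)` over `F₁(M)` are computed (seats K2-K4).
-/
import Mathlib
import Fermat.Agent.S24.EmbFHom
import Fermat.Agent.S24.Periods
import Fermat.Agent.S48.W.A1.Inv

set_option autoImplicit false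

noncomputable section

namespace Fermat.Agent.S48WKron

open UpperHalfPlane Fermat.Agent.S24
open scoped MatrixGroups Manifold

/-- membership condition of `AHb M`. -/
def IsAHb (M : ℕ) (f : Fun) : Prop :=
  IsHol f ∧ (∀ γ ∈ CongruenceSubgroup.Gamma M, γ • f = f) ∧
    ∀ γ : SL(2, ℤ), ∃ a : LaurentSeries Kbar, HasExp M (γ • f) a

theorem isAHb_algebraMap (M : ℕ) (c : Kbar) : IsAHb M (algebraMap Kbar Fun c) := by
  have h : ∀ γ : SL(2, ℤ), γ • (algebraMap Kbar Fun c) = algebraMap Kbar Fun c := by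
    intro γ; ext τ; simp
  refine ⟨isHol_algebraMap c, fun γ _ => h γ, fun γ => ?_⟩
  rw [h γ]
  exact ⟨_, HasExp.algebraMap M c⟩

theorem IsAHb.add {M : ℕ} [NeZero M] {f g : Fun} (hf : IsAHb M f) (hg : IsAHb M g) :
    IsAHb M (f + g) := by
  refine ⟨hf.1.add hg.1, fun γ hγ => by rw [smul_add, hf.2.1 γ hγ, hg.2.1 γ hγ], fun γ => ?_⟩
  obtain ⟨a, ha⟩ := hf.2.2 γ
  obtain ⟨b, hb⟩ := hg.2.2 γ
  rw [smul_add]
  exact ⟨a + b, ha.add hb⟩

theorem IsAHb.mul {M : ℕ} [NeZero M] {f g : Fun} (hf : IsAHb M f) (hg : IsAHb M g) :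
    IsAHb M (f * g) := by
  refine ⟨hf.1.mul hg.1, fun γ hγ => by rw [smul_mul', hf.2.1 γ hγ, hg.2.1 γ hγ], fun γ => ?_⟩
  obtain ⟨a, ha⟩ := hf.2.2 γ
  obtain ⟨b, hb⟩ := hg.2.2 γ
  rw [smul_mul']
  exact ⟨a * b, ha.mul hb⟩

theorem IsAHb.sl_smul {M : ℕ} {f : Fun} (hf : IsAHb M f) (g : SL(2, ℤ)) : IsAHb M (g • f) := by
  refine ⟨hf.1.sl_smul g, fun γ hγ => ?_, fun γ => ?_⟩
  · have hconj : g⁻¹ * γ * g ∈ CongruenceSubgroup.Gamma M := by
      have hn : (CongruenceSubgroup.Gamma M).Normal := CongruenceSubgroup.Gamma_normal M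
      have := hn.conj_mem γ hγ g⁻¹
      simpa using this
    calc γ • g • f = g • ((g⁻¹ * γ * g) • f) := by
          rw [← mul_smul, ← mul_smul]
          congr 1
          group
      _ = g • f := by rw [hf.2.1 _ hconj]
  · rw [← mul_smul]
    exact hf.2.2 (γ * g)

/-- **the ring of modular functions of level `M`, holomorphic on `ℍ`, with expansions over
`ℚ̄` at all cusps.** -/
def AHb (M : ℕ) [NeZero M] : Subalgebra Kbar Fun where
  carrier := {f | IsAHb M f}
  mul_mem' := fun hf hg => IsAHb.mul hf hg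
  add_mem' := fun hf hg => IsAHb.add hf hg
  algebraMap_mem' c := isAHb_algebraMap M c

theorem mem_AHb {M : ℕ} [NeZero M] {f : Fun} : f ∈ AHb M ↔ IsAHb M f := Iff.rfl

theorem isHol_of_mem_AHb {M : ℕ} [NeZero M] {f : Fun} (hf : f ∈ AHb M) : IsHol f := hf.1

theorem smul_eq_of_mem_AHb {M : ℕ} [NeZero M] {f : Fun} (hf : f ∈ AHb M) {γ : SL(2, ℤ)}
    (hγ : γ ∈ CongruenceSubgroup.Gamma M) : γ • f = f := hf.2.1 γ hγ

theorem exists_hasExp_of_mem_AHb {M : ℕ} [NeZero M] {f : Fun} (hf : f ∈ AHb M) :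
    ∃ a : LaurentSeries Kbar, HasExp M f a := by
  have := hf.2.2 1
  rwa [one_smul] at this

theorem smul_mem_AHb {M : ℕ} [NeZero M] (γ : SL(2, ℤ)) {f : Fun} (hf : f ∈ AHb M) :
    γ • f ∈ AHb M := IsAHb.sl_smul hf γ

/-- the ring `AL M` of S24 (generated by the `γ • j_d`, `d ∣ M`) is contained in `AHb M`. -/
theorem AL_le_AHb (M : ℕ) [NeZero M] : AL M ≤ AHb M := by
  intro f hf
  refine ⟨isHol_of_mem_AL hf, fun γ hγ => ?_, fun γ =>
    EmbFHom.exists_hasExp_of_mem_AL M (smul_mem_AL M γ hf)⟩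
  have h := Gamma_smul_eq M γ hγ (algebraMap (AL M) (LL M) ⟨f, hf⟩)
  rw [LL.smul_algebraMap] at h
  exact congrArg Subtype.val (IsFractionRing.injective (AL M) (LL M) h)

instance instMulSemiringActionAHb (M : ℕ) [NeZero M] : MulSemiringAction SL(2, ℤ) (AHb M) where
  smul γ f := ⟨γ • (f : Fun), smul_mem_AHb γ f.2⟩
  one_smul f := Subtype.ext (one_smul _ _)
  mul_smul γ γ' f := Subtype.ext (mul_smul _ _ _)
  smul_zero γ := Subtype.ext (smul_zero _)
  smul_add γ f g := Subtype.ext (smul_add _ _ _)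
  smul_one γ := Subtype.ext (smul_one _)
  smul_mul γ f g := Subtype.ext (smul_mul' _ _ _)

@[simp] theorem AHb.coe_smul (M : ℕ) [NeZero M] (γ : SL(2, ℤ)) (f : AHb M) :
    ((γ • f : AHb M) : Fun) = γ • (f : Fun) := rfl

instance instSMulCommClassAHb (M : ℕ) [NeZero M] : SMulCommClass SL(2, ℤ) Kbar (AHb M) where
  smul_comm γ a f := Subtype.ext (smul_comm γ a (f : Fun))

instance instIsDomainAHb (M : ℕ) [NeZero M] : IsDomain (AHb M) := by
  have : Nontrivial (AHb M) := by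
    refine ⟨⟨0, 1, fun h => ?_⟩⟩
    have h1 : ((0 : AHb M) : Fun) = ((1 : AHb M) : Fun) := congrArg Subtype.val h
    have h2 := congrFun h1 ⟨Complex.I, by simp⟩
    exact zero_ne_one h2
  have : NoZeroDivisors (AHb M) := by
    refine ⟨fun {a b} h => ?_⟩
    have h1 : (a : Fun) * (b : Fun) = 0 := congrArg Subtype.val h
    rcases (isHol_of_mem_AHb a.2).eq_zero_or_eq_zero_of_mul_eq_zero
      (isHol_of_mem_AHb b.2) h1 with h2 | h2
    · exact Or.inl (Subtype.ext h2)
    · exact Or.inr (Subtype.ext h2)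
  exact NoZeroDivisors.to_isDomain _

/-- **the field of modular functions of level `M` over `ℚ̄`.** -/
abbrev LHb (M : ℕ) [NeZero M] : Type := FractionRing (AHb M)

instance instMulSemiringActionLHb (M : ℕ) [NeZero M] : MulSemiringAction SL(2, ℤ) (LHb M) :=
  IsFractionRing.mulSemiringAction SL(2, ℤ) (AHb M) (LHb M)

theorem LHb.smul_algebraMap (M : ℕ) [NeZero M] (γ : SL(2, ℤ)) (f : AHb M) :
    γ • (algebraMap (AHb M) (LHb M) f) = algebraMap (AHb M) (LHb M) (γ • f) := by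
  have := (IsFractionRing.smulDistribClass SL(2, ℤ) (AHb M) (LHb M)).smul_distrib_smul γ f
    (1 : LHb M)
  simpa [Algebra.smul_def] using this

instance instSMulCommClassLHb (M : ℕ) [NeZero M] : SMulCommClass SL(2, ℤ) Kbar (LHb M) where
  smul_comm γ a x := by
    have h1 : γ • (algebraMap Kbar (LHb M) a) = algebraMap Kbar (LHb M) a := by
      rw [IsScalarTower.algebraMap_apply Kbar (AHb M) (LHb M), LHb.smul_algebraMap]
      rfl
    rw [Algebra.smul_def, Algebra.smul_def, smul_mul', h1]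

/-- an element of `LHb M` from a function. -/
def LHb.ofFun {M : ℕ} [NeZero M] (f : Fun) (hf : IsAHb M f) : LHb M :=
  algebraMap (AHb M) (LHb M) ⟨f, hf⟩

theorem LHb.ofFun_injective {M : ℕ} [NeZero M] {f g : Fun} (hf : IsAHb M f) (hg : IsAHb M g)
    (h : LHb.ofFun f hf = LHb.ofFun g hg) : f = g :=
  congrArg Subtype.val (IsFractionRing.injective (AHb M) (LHb M) h)

theorem LHb.smul_ofFun {M : ℕ} [NeZero M] (γ : SL(2, ℤ)) (f : Fun) (hf : IsAHb M f) :
    γ • LHb.ofFun f hf = LHb.ofFun (γ • f) (hf.sl_smul γ) :=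
  LHb.smul_algebraMap M γ ⟨f, hf⟩

theorem LHb.ofFun_mul {M : ℕ} [NeZero M] (f g : Fun) (hf : IsAHb M f) (hg : IsAHb M g) :
    LHb.ofFun (f * g) (hf.mul hg) = LHb.ofFun f hf * LHb.ofFun g hg :=
  map_mul (algebraMap (AHb M) (LHb M)) ⟨f, hf⟩ ⟨g, hg⟩

theorem LHb.ofFun_add {M : ℕ} [NeZero M] (f g : Fun) (hf : IsAHb M f) (hg : IsAHb M g) :
    LHb.ofFun (f + g) (hf.add hg) = LHb.ofFun f hf + LHb.ofFun g hg :=
  map_add (algebraMap (AHb M) (LHb M)) ⟨f, hf⟩ ⟨g, hg⟩

/-- `Γ(M)` acts trivially on `LHb M`. -/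
theorem Gamma_smul_eq_LHb (M : ℕ) [NeZero M] (γ : SL(2, ℤ))
    (hγ : γ ∈ CongruenceSubgroup.Gamma M) (x : LHb M) : γ • x = x := by
  have hAH : ∀ f : AHb M, γ • f = f := fun f => Subtype.ext (smul_eq_of_mem_AHb f.2 hγ)
  obtain ⟨a, b, -, rfl⟩ := IsFractionRing.div_surjective (A := AHb M) x
  rw [div_eq_mul_inv, smul_mul', smul_inv'', LHb.smul_algebraMap, LHb.smul_algebraMap, hAH a,
    hAH b]

theorem exists_finiteIndex_fixing_LHb (M : ℕ) [NeZero M] :
    ∃ Γ' : Subgroup SL(2, ℤ), Γ'.FiniteIndex ∧ ∀ g ∈ Γ', ∀ x : LHb M, g • x = x :=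
  ⟨CongruenceSubgroup.Gamma M, inferInstance, fun g hg x => Gamma_smul_eq_LHb M g hg x⟩

/-- the inclusion `AL M → AHb M`. -/
def inclAHb (M : ℕ) [NeZero M] : AL M →ₐ[Kbar] AHb M := Subalgebra.inclusion (AL_le_AHb M)

/-- `j` as an element of `AHb M`. -/
def jAHb (M : ℕ) [NeZero M] : AHb M := inclAHb M (jAL M)

@[simp] theorem coe_jAHb (M : ℕ) [NeZero M] : ((jAHb M : AHb M) : Fun) = jFun := rfl

/-- `j` as an element of `LHb M`. -/
def jLHb (M : ℕ) [NeZero M] : LHb M := algebraMap (AHb M) (LHb M) (jAHb M)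

theorem smul_jAHb (M : ℕ) [NeZero M] (g : SL(2, ℤ)) : g • jAHb M = jAHb M := by
  apply Subtype.ext
  exact jFun_smul g

theorem smul_jLHb (M : ℕ) [NeZero M] (g : SL(2, ℤ)) : g • jLHb M = jLHb M := by
  rw [jLHb, LHb.smul_algebraMap, smul_jAHb]

/-- `j_d` (`d ∣ M`) as an element of `LHb M`. -/
def jdLHb (M d : ℕ) [NeZero M] [NeZero d] (hd : d ∣ M) : LHb M :=
  algebraMap (AHb M) (LHb M) (inclAHb M (EmbFHom.jdAL M d hd))

/-! ### the expansion at `∞` -/

/-- the expansion at `∞` of an element of `AHb M`. -/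
def expFunAHb (M : ℕ) [NeZero M] (f : AHb M) : LaurentSeries Kbar :=
  (exists_hasExp_of_mem_AHb f.2).choose

theorem hasExp_expFunAHb (M : ℕ) [NeZero M] (f : AHb M) :
    HasExp M (f : Fun) (expFunAHb M f) :=
  (exists_hasExp_of_mem_AHb f.2).choose_spec

theorem expFunAHb_eq (M : ℕ) [NeZero M] (f : AHb M) {a : LaurentSeries Kbar}
    (h : HasExp M (f : Fun) a) : expFunAHb M f = a :=
  (hasExp_expFunAHb M f).unique h

/-- the expansion at `∞` (in `u = exp(2πiτ/M)`) on `AHb M`. -/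
def expAHb (M : ℕ) [NeZero M] : AHb M →ₐ[Kbar] LaurentSeries Kbar where
  toFun := expFunAHb M
  map_one' := by
    apply expFunAHb_eq
    have h := HasExp.algebraMap M (1 : Kbar)
    rwa [map_one, map_one] at h
  map_mul' f g := expFunAHb_eq M _ ((hasExp_expFunAHb M f).mul (hasExp_expFunAHb M g))
  map_zero' := by
    apply expFunAHb_eq
    have h := HasExp.algebraMap M (0 : Kbar)
    rwa [map_zero, map_zero] at h
  map_add' f g := expFunAHb_eq M _ ((hasExp_expFunAHb M f).add (hasExp_expFunAHb M g))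
  commutes' c := expFunAHb_eq M _ (HasExp.algebraMap M c)

theorem hasExp_expAHb {M : ℕ} [NeZero M] (f : AHb M) : HasExp M (f : Fun) (expAHb M f) :=
  hasExp_expFunAHb M f

theorem expAHb_eq {M : ℕ} [NeZero M] {f : AHb M} {a : LaurentSeries Kbar}
    (h : HasExp M (f : Fun) a) : expAHb M f = a :=
  (hasExp_expAHb f).unique h

theorem expAHb_injective (M : ℕ) [NeZero M] : Function.Injective (expAHb M) := by
  intro f g h
  apply Subtype.ext
  have hf := hasExp_expAHb f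
  have hg := hasExp_expAHb g
  rw [h] at hf
  exact hf.fun_unique hg

/-- the expansion at `∞` on the field `LHb M`. -/
def expLHb (M : ℕ) [NeZero M] : LHb M →ₐ[Kbar] LaurentSeries Kbar :=
  IsFractionRing.liftAlgHom (expAHb_injective M)

theorem expLHb_algebraMap (M : ℕ) [NeZero M] (f : AHb M) :
    expLHb M (algebraMap (AHb M) (LHb M) f) = expAHb M f := by
  unfold expLHb
  rw [IsFractionRing.liftAlgHom_apply]
  exact IsFractionRing.lift_algebraMap _ _

theorem expLHb_injective (M : ℕ) [NeZero M] : Function.Injective (expLHb M) :=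
  (expLHb M).toRingHom.injective

theorem expLHb_ofFun {M : ℕ} [NeZero M] (f : Fun) (hf : IsAHb M f) {a : LaurentSeries Kbar}
    (h : HasExp M f a) : expLHb M (LHb.ofFun f hf) = a := by
  unfold LHb.ofFun
  rw [expLHb_algebraMap]
  exact expAHb_eq h

theorem expLHb_jdLHb (M d : ℕ) [NeZero M] [NeZero d] (hd : d ∣ M) :
    expLHb M (jdLHb M d hd) = ModularCurve.qExpand Kbar (M * d) (ModularCurve.jqModC Kbar) := by
  unfold jdLHb
  rw [expLHb_algebraMap]
  have h1 := EmbFHom.expLL_jdLL M d hd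
  have h2 : HasExp M ((EmbFHom.jdAL M d hd : AL M) : Fun)
      (EmbFHom.expLL M (EmbFHom.jdLL M d hd)) := by
    unfold EmbFHom.jdLL
    rw [EmbFHom.expLL_algebraMap]
    exact EmbFHom.hasExp_expAL M _
  rw [h1] at h2
  exact expAHb_eq h2

theorem jdLHb_one (M : ℕ) [NeZero M] : jdLHb M 1 (one_dvd M) = jLHb M := by
  unfold jdLHb jLHb jAHb
  rw [EmbFHom.jdAL_one]

/-- the expansion of a translate. -/
theorem expLHb_T_smul_ofFun {M : ℕ} [NeZero M] (f : Fun) (hf : IsAHb M f)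
    {a : LaurentSeries Kbar} (h : HasExp M (ModularGroup.T • f) a) :
    expLHb M (ModularGroup.T • LHb.ofFun f hf) = a := by
  rw [LHb.smul_ofFun]
  exact expLHb_ofFun _ _ h

/-! ### the invariants -/

/-- an `SL(2,ℤ)`-invariant element of `AHb M` is a polynomial in `j` (hub A1). -/
theorem exists_aeval_jAHb_of_invariant (M : ℕ) [NeZero M] (f : AHb M)
    (hf : ∀ γ : SL(2, ℤ), γ • f = f) :
    ∃ P : Polynomial Kbar, Polynomial.aeval (jAHb M) P = f := by
  obtain ⟨a, ha⟩ := exists_hasExp_of_mem_AHb f.2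
  obtain ⟨P, hP⟩ := Fermat.Agent.S48WA1.invariant M (f : Fun) a (isHol_of_mem_AHb f.2)
    (fun γ => congrArg Subtype.val (hf γ)) ha
  refine ⟨P, Subtype.ext ?_⟩
  rw [← hP]
  have h1 : ((Polynomial.aeval (jAHb M) P : AHb M) : Fun)
      = Polynomial.aeval ((jAHb M : AHb M) : Fun) P := by
    have := Polynomial.aeval_algHom_apply (AHb M).val (jAHb M) P
    exact this.symm
  rw [h1, coe_jAHb]

/-- The orbit of an element of `AHb M` is finite. -/
theorem finite_orbit_AHb {M : ℕ} [NeZero M] (b : AHb M) :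
    (MulAction.orbit SL(2, ℤ) b).Finite := by
  have hle : CongruenceSubgroup.Gamma M ≤ MulAction.stabilizer SL(2, ℤ) b := by
    intro γ hγ
    exact Subtype.ext (smul_eq_of_mem_AHb b.2 hγ)
  have : (MulAction.stabilizer SL(2, ℤ) b).FiniteIndex := Subgroup.finiteIndex_of_le hle
  have : Finite (SL(2, ℤ) ⧸ MulAction.stabilizer SL(2, ℤ) b) :=
    Subgroup.finite_quotient_of_finiteIndex
  have e := MulAction.orbitEquivQuotientStabilizer SL(2, ℤ) b
  have : Finite (MulAction.orbit SL(2, ℤ) b) := Finite.of_equiv _ e.symm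
  exact Set.toFinite _

/-- **the invariants of `LHb M` are `ℚ̄(j)`.** -/
theorem mem_adjoin_jLHb_of_invariant (M : ℕ) [NeZero M] (x : LHb M)
    (hx : ∀ γ : SL(2, ℤ), γ • x = x) :
    x ∈ IntermediateField.adjoin Kbar {jLHb M} := by
  classical
  obtain ⟨a, b, hb, rfl⟩ := IsFractionRing.div_surjective (A := AHb M) x
  have hb0 : b ≠ 0 := nonZeroDivisors.ne_zero hb
  -- the orbit of the denominator
  have hfin := finite_orbit_AHb b
  set O : Finset (AHb M) := hfin.toFinset with hO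
  have hmemO : ∀ y : AHb M, y ∈ O ↔ ∃ g : SL(2, ℤ), g • b = y := by
    intro y
    rw [hO, Set.Finite.mem_toFinset]
    exact MulAction.mem_orbit_iff
  have hbO : b ∈ O := (hmemO b).mpr ⟨1, one_smul _ b⟩
  -- the norm and the cofactor
  set Nm : AHb M := ∏ y ∈ O, y with hNm
  set c : AHb M := ∏ y ∈ O.erase b, y with hc
  have hNmc : Nm = b * c := by
    rw [hNm, hc, Finset.mul_prod_erase O (fun y => y) hbO]
  have hNm_inv : ∀ γ : SL(2, ℤ), γ • Nm = Nm := by
    intro γ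
    rw [hNm, Finset.smul_prod']
    refine Finset.prod_nbij (fun y => γ • y) ?_ ?_ ?_ ?_
    · intro y hy
      obtain ⟨g, rfl⟩ := (hmemO y).mp hy
      exact (hmemO _).mpr ⟨γ * g, mul_smul γ g b⟩
    · intro y _ z _ hyz
      exact MulAction.injective γ hyz
    · intro z hz
      obtain ⟨g, rfl⟩ := (hmemO z).mp hz
      refine ⟨(γ⁻¹ * g) • b, ?_, ?_⟩
      · exact (hmemO _).mpr ⟨γ⁻¹ * g, rfl⟩
      · show γ • (γ⁻¹ * g) • b = g • b
        rw [← mul_smul, mul_inv_cancel_left]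
    · intro y _
      rfl
  have hNm0 : Nm ≠ 0 := by
    rw [hNm, Finset.prod_ne_zero_iff]
    intro y hy
    obtain ⟨g, rfl⟩ := (hmemO y).mp hy
    exact (smul_ne_zero_iff_ne g).mpr hb0
  -- the numerator `a * c` is invariant
  have hinj := IsFractionRing.injective (AHb M) (LHb M)
  have hne : ∀ z : AHb M, z ≠ 0 → algebraMap (AHb M) (LHb M) z ≠ 0 := fun z hz h =>
    hz (hinj (h.trans (map_zero _).symm))
  have hc0 : c ≠ 0 := by
    intro h0
    apply hNm0
    rw [hNmc, h0, mul_zero]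
  have hxeq : algebraMap (AHb M) (LHb M) a / algebraMap (AHb M) (LHb M) b
      = algebraMap (AHb M) (LHb M) (a * c) / algebraMap (AHb M) (LHb M) Nm := by
    rw [hNmc, map_mul, map_mul, mul_div_mul_right _ _ (hne c hc0)]
  have hNm' : algebraMap (AHb M) (LHb M) Nm ≠ 0 := hne Nm hNm0
  have hac_inv : ∀ γ : SL(2, ℤ), γ • (a * c) = a * c := by
    intro γ
    apply hinj
    rw [← LHb.smul_algebraMap]
    have h1 : algebraMap (AHb M) (LHb M) (a * c)
        = (algebraMap (AHb M) (LHb M) a / algebraMap (AHb M) (LHb M) b)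
          * algebraMap (AHb M) (LHb M) Nm := by
      rw [hxeq, div_mul_cancel₀ _ hNm']
    rw [h1, smul_mul', hx γ, LHb.smul_algebraMap, hNm_inv γ]
  obtain ⟨P, hP⟩ := exists_aeval_jAHb_of_invariant M (a * c) hac_inv
  obtain ⟨Q, hQ⟩ := exists_aeval_jAHb_of_invariant M Nm hNm_inv
  rw [hxeq, IntermediateField.mem_adjoin_simple_iff]
  refine ⟨P, Q, ?_⟩
  have hj : ∀ R : Polynomial Kbar, Polynomial.aeval (jLHb M) R
      = algebraMap (AHb M) (LHb M) (Polynomial.aeval (jAHb M) R) := by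
    intro R
    rw [jLHb, ← Polynomial.aeval_algebraMap_apply]
  rw [hj, hj, hP, hQ]

end Fermat.Agent.S48WKron
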