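/-
S48 wall (W), block G, part G-PORT, seat P6 Kron, sub-seat K1b SCALE (helper24).

GENERIC lemmas on the ambient ring `AHb` (`Kron/Amb.lean`):
* `hasExp_comp_of_uParam` : substitution `u ↦ z u^k` (`|z| = 1`) in an expansion;
* `IsAHb.mono`       : `m ∣ m'`, `IsAHb m f`  ⟹  `IsAHb m' f`;
* `IsAHb.comp_scale` : `IsAHb m f`  ⟹  `IsAHb (m * d) (f ∘ scale d)`   (Hermite normal form).
-/
import Mathlib
import Fermat.Agent.S48.W.G.Kron.Amb

set_option autoImplicit false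

noncomputable section

namespace Fermat.Agent.S48WKron

open UpperHalfPlane Fermat.Agent.S24 Fermat.Agent.S24.GensExp
open scoped MatrixGroups Manifold

/-- `HasExp` depends only on the values of the function. -/
theorem hasExp_congr_fun {M : ℕ} {f g : Fun} {a : LaurentSeries Kbar}
    (h : HasExp M f a) (e : ∀ τ : ℍ, g τ = f τ) : HasExp M g a := by
  have : g = f := funext e
  rw [this]
  exact h

/-! ### substitution `u ↦ z u^k` -/

/-- the series `∑ pₙ zⁿ X^(k n)`. -/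
def substPS (z : Kbar) (k : ℕ) (P : PowerSeries Kbar) : PowerSeries Kbar :=
  PowerSeries.mk fun n => if k ∣ n then z ^ (n / k) * PowerSeries.coeff (n / k) P else 0

theorem coeff_substPS (z : Kbar) (k : ℕ) (P : PowerSeries Kbar) (n : ℕ) :
    PowerSeries.coeff n (substPS z k P)
      = if k ∣ n then z ^ (n / k) * PowerSeries.coeff (n / k) P else 0 := by
  rw [substPS, PowerSeries.coeff_mk]

theorem coeff_substPS_mul (z : Kbar) (k : ℕ) (hk : 0 < k) (P : PowerSeries Kbar) (n : ℕ) :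
    PowerSeries.coeff (k * n) (substPS z k P) = z ^ n * PowerSeries.coeff n P := by
  rw [coeff_substPS, if_pos (dvd_mul_right k n), Nat.mul_div_cancel_left n hk]

theorem coeff_substPS_of_not_dvd (z : Kbar) (k : ℕ) (P : PowerSeries Kbar) {n : ℕ}
    (h : ¬ k ∣ n) : PowerSeries.coeff n (substPS z k P) = 0 := by
  rw [coeff_substPS, if_neg h]

/-- Substitution `u_{M₀} ∘ φ = z u_M^k` in a power series expansion. -/
theorem hasPExp_substPS {M₀ M : ℕ} {G : Fun} {P : PowerSeries Kbar} (hG : HasPExp M₀ G P)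
    (φ : ℍ → ℍ) (z : Kbar) (hz : ‖iota z‖ = 1) (k : ℕ) (hk : 0 < k)
    (hφ : ∀ τ, uParam M₀ (φ τ) = iota z * uParam M τ ^ k) :
    HasPExp M (fun τ => G (φ τ)) (substPS z k P) := by
  intro τ
  obtain ⟨hS, hH⟩ := hG (φ τ)
  have hinj : Function.Injective (fun n : ℕ => k * n) := fun a b h =>
    Nat.eq_of_mul_eq_mul_left hk h
  have hrange : ∀ m : ℕ, m ∉ Set.range (fun n : ℕ => k * n) → ¬ k ∣ m := by
    intro m hm hdvd
    obtain ⟨n, rfl⟩ := hdvd
    exact hm ⟨n, rfl⟩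
  have hnorm : ‖uParam M₀ (φ τ)‖ = ‖uParam M τ‖ ^ k := by
    rw [hφ τ, norm_mul, hz, one_mul, norm_pow]
  constructor
  · rw [← hinj.summable_iff]
    · refine hS.congr fun n => ?_
      simp only [Function.comp_apply]
      rw [coeff_substPS_mul z k hk, map_mul, map_pow, norm_mul, norm_pow, hz, one_pow, one_mul,
        hnorm, pow_mul]
    · intro m hm
      rw [coeff_substPS_of_not_dvd z k P (hrange m hm), map_zero, norm_zero, zero_mul]
  · rw [← hinj.hasSum_iff]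
    · have e2 : ((fun m => iota (PowerSeries.coeff m (substPS z k P)) * uParam M τ ^ m) ∘
            fun n : ℕ => k * n)
          = fun n => iota (PowerSeries.coeff n P) * uParam M₀ (φ τ) ^ n := by
        funext n
        simp only [Function.comp_apply]
        rw [coeff_substPS_mul z k hk, map_mul, map_pow, hφ τ, mul_pow, pow_mul]
        ring
      rw [e2]
      exact hH
    · intro m hm
      rw [coeff_substPS_of_not_dvd z k P (hrange m hm), map_zero, zero_mul]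

/-- Substitution `u_{M₀} ∘ φ = z u_M^k` in a Laurent expansion. -/
theorem hasExp_comp_of_uParam {M₀ M : ℕ} {g : Fun} {A : LaurentSeries Kbar}
    (hg : HasExp M₀ g A) (φ : ℍ → ℍ) (z : Kbar) (hz : ‖iota z‖ = 1) (k : ℕ) (hk : 0 < k)
    (hφ : ∀ τ, uParam M₀ (φ τ) = iota z * uParam M τ ^ k) :
    ∃ B : LaurentSeries Kbar, HasExp M (fun τ => g (φ τ)) B := by
  obtain ⟨μ, P, -, hP⟩ := hg
  have h1 := hasPExp_substPS hP φ z hz k hk hφ
  have hz0 : iota z ≠ 0 := by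
    intro h
    rw [h, norm_zero] at hz
    exact zero_ne_one hz
  have h2 := (HasPExp.const M (z⁻¹ ^ μ)).mul h1
  refine ⟨_, k * μ, _, rfl, HasExp.pexp_congr h2 fun τ => ?_⟩
  show g (φ τ) * uParam M τ ^ (k * μ)
    = iota (z⁻¹ ^ μ) * (g (φ τ) * uParam M₀ (φ τ) ^ μ)
  rw [hφ τ, mul_pow, map_pow, map_inv₀, pow_mul]
  have hinv : (iota z)⁻¹ ^ μ * iota z ^ μ = 1 := by
    rw [← mul_pow, inv_mul_cancel₀ hz0, one_pow]
  linear_combination (-(g (φ τ) * (uParam M τ ^ k) ^ μ)) * hinv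

/-- `u_m((aτ + b)/e) = ζ · u_{m a e}(τ)^(a a)`, `ζ = e(b/(e m))`. -/
theorem uParam_aff_mul (m a e : ℕ) (b : ℤ) (ha : 0 < a) (he : 0 < e) (hm : 0 < m) (τ : ℍ) :
    uParam m (aff a e b ha he τ)
      = Complex.exp (2 * Real.pi * Complex.I * (b : ℂ) / ((e * m : ℕ) : ℂ))
        * uParam (m * (a * e)) τ ^ (a * a) := by
  have he' : (e : ℂ) ≠ 0 := by exact_mod_cast he.ne'
  have hm' : (m : ℂ) ≠ 0 := by exact_mod_cast hm.ne'
  have ha' : (a : ℂ) ≠ 0 := by exact_mod_cast ha.ne'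
  unfold uParam Function.Periodic.qParam
  rw [← Complex.exp_nat_mul, ← Complex.exp_add]
  congr 1
  rw [coe_aff]
  push_cast
  field_simp
  ring

/-- composition with `τ ↦ (aτ + b)/e` preserves the existence of expansions. -/
theorem exists_hasExp_comp_aff {m : ℕ} [NeZero m] {g : Fun} {A : LaurentSeries Kbar}
    (hg : HasExp m g A) (a e : ℕ) (b : ℤ) (ha : 0 < a) (he : 0 < e) :
    ∃ B : LaurentSeries Kbar, HasExp (m * (a * e)) (fun τ => g (aff a e b ha he τ)) B := by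
  have hm : 0 < m := Nat.pos_of_ne_zero (NeZero.ne m)
  have hem : 0 < e * m := Nat.mul_pos he hm
  obtain ⟨z, hz⟩ := exists_iota_eq_of_pow_eq_one hem (exp_two_pi_I_mul_div_pow b (e * m) hem)
  have hz1 : ‖iota z‖ = 1 := by rw [hz]; exact norm_exp_two_pi_I_mul_div b (e * m)
  refine hasExp_comp_of_uParam hg (aff a e b ha he) z hz1 (a * a) (Nat.mul_pos ha ha) fun τ => ?_
  rw [uParam_aff_mul m a e b ha he hm, hz]

/-! ### change of level -/

theorem Gamma_le_Gamma_of_dvd {m m' : ℕ} (h : m ∣ m') :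
    CongruenceSubgroup.Gamma m' ≤ CongruenceSubgroup.Gamma m := by
  intro γ hγ
  rw [CongruenceSubgroup.Gamma_mem] at hγ ⊢
  have key : ∀ x c : ℤ, ((x : ℤ) : ZMod m') = (c : ZMod m') → ((x : ℤ) : ZMod m) = (c : ZMod m) := by
    intro x c hxc
    have := congrArg (ZMod.castHom h (ZMod m)) hxc
    simpa using this
  obtain ⟨h1, h2, h3, h4⟩ := hγ
  refine ⟨?_, ?_, ?_, ?_⟩
  · simpa using key (γ 0 0) 1 (by simpa using h1)
  · simpa using key (γ 0 1) 0 (by simpa using h2)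
  · simpa using key (γ 1 0) 0 (by simpa using h3)
  · simpa using key (γ 1 1) 1 (by simpa using h4)

/-- **change of level**: a function of level `m` is of level `m'` for `m ∣ m'`. -/
theorem IsAHb.mono {m m' : ℕ} [NeZero m] [NeZero m'] (h : m ∣ m') {f : Fun} (hf : IsAHb m f) :
    IsAHb m' f := by
  refine ⟨hf.1, fun γ hγ => hf.2.1 γ (Gamma_le_Gamma_of_dvd h hγ), fun γ => ?_⟩
  obtain ⟨k, rfl⟩ := h
  have hk : k ≠ 0 := by
    rintro rfl
    exact NeZero.ne (m * 0) (mul_zero m)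
  haveI : NeZero k := ⟨hk⟩
  obtain ⟨a, ha⟩ := hf.2.2 γ
  exact ⟨_, ha.qExpand k⟩

/-! ### composition with `τ ↦ d τ` -/

/-- the conjugate `diag(d,1) g diag(d,1)⁻¹` of `g = [α β; d c' δ]`. -/
def scaleConj (d : ℕ) (g : SL(2, ℤ)) (c' : ℤ) (hc : g 1 0 = d * c') : SL(2, ℤ) :=
  ⟨!![g 0 0, d * g 0 1; c', g 1 1], by
    rw [Matrix.det_fin_two_of]
    have := sl2_det g
    rw [hc] at this
    linear_combination this⟩

theorem scale_smul_eq (d : ℕ) [NeZero d] (g : SL(2, ℤ)) (c' : ℤ) (hc : g 1 0 = d * c') (τ : ℍ) :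
    scale d (g • τ) = scaleConj d g c' hc • scale d τ := by
  apply UpperHalfPlane.ext
  have hd : (d : ℂ) ≠ 0 := by exact_mod_cast NeZero.ne d
  have h1 := sl2_denom_ne_zero g τ
  have h2 := sl2_denom_ne_zero (scaleConj d g c' hc) (scale d τ)
  rw [coe_scale, coe_sl2_smul, coe_sl2_smul, coe_scale]
  have e00 : (scaleConj d g c' hc) 0 0 = g 0 0 := rfl
  have e01 : (scaleConj d g c' hc) 0 1 = d * g 0 1 := rfl
  have e10 : (scaleConj d g c' hc) 1 0 = c' := rfl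
  have e11 : (scaleConj d g c' hc) 1 1 = g 1 1 := rfl
  rw [e10, e11, coe_scale] at h2
  rw [e00, e01, e10, e11]
  have hc' : ((g 1 0 : ℤ) : ℂ) = (d : ℂ) * (c' : ℂ) := by rw [hc]; push_cast; ring
  rw [hc'] at h1 ⊢
  have h3 : (c' : ℂ) * ((d : ℂ) * (τ : ℂ)) + ((g 1 1 : ℤ) : ℂ)
      = (d : ℂ) * (c' : ℂ) * (τ : ℂ) + ((g 1 1 : ℤ) : ℂ) := by ring
  rw [h3] at h2 ⊢
  push_cast
  field_simp

theorem scaleConj_mem_Gamma {m d : ℕ} [NeZero d] {g : SL(2, ℤ)}
    (hg : g ∈ CongruenceSubgroup.Gamma (m * d)) (c' : ℤ) (hc : g 1 0 = d * c') :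
    scaleConj d g c' hc ∈ CongruenceSubgroup.Gamma m := by
  rw [CongruenceSubgroup.Gamma_mem] at hg ⊢
  obtain ⟨h1, h2, h3, h4⟩ := hg
  have hdvd : ∀ x : ℤ, ((x : ℤ) : ZMod (m * d)) = 0 → ((m * d : ℕ) : ℤ) ∣ x := fun x hx =>
    (ZMod.intCast_zmod_eq_zero_iff_dvd x (m * d)).mp hx
  have hm : ∀ x : ℤ, ((m : ℕ) : ℤ) ∣ x → ((x : ℤ) : ZMod m) = 0 := fun x hx =>
    (ZMod.intCast_zmod_eq_zero_iff_dvd x m).mpr hx
  have e00 : (scaleConj d g c' hc) 0 0 = g 0 0 := rfl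
  have e01 : (scaleConj d g c' hc) 0 1 = d * g 0 1 := rfl
  have e10 : (scaleConj d g c' hc) 1 0 = c' := rfl
  have e11 : (scaleConj d g c' hc) 1 1 = g 1 1 := rfl
  have hd0 : (d : ℤ) ≠ 0 := by exact_mod_cast NeZero.ne d
  have k1 : ((m : ℕ) : ℤ) ∣ g 0 0 - 1 := by
    have : ((g 0 0 - 1 : ℤ) : ZMod (m * d)) = 0 := by push_cast; rw [h1]; ring
    exact (Dvd.intro _ (by push_cast; rfl)).trans (hdvd _ this)
  have k4 : ((m : ℕ) : ℤ) ∣ g 1 1 - 1 := by
    have : ((g 1 1 - 1 : ℤ) : ZMod (m * d)) = 0 := by push_cast; rw [h4]; ring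
    exact (Dvd.intro _ (by push_cast; rfl)).trans (hdvd _ this)
  have k2 : ((m : ℕ) : ℤ) ∣ d * g 0 1 := by
    have := hdvd _ h2
    exact Dvd.dvd.mul_left ((Dvd.intro _ (by push_cast; rfl)).trans this) _
  have k3 : ((m : ℕ) : ℤ) ∣ c' := by
    have := hdvd _ h3
    rw [hc] at this
    push_cast at this
    rw [mul_comm (m : ℤ) (d : ℤ)] at this
    exact (mul_dvd_mul_iff_left hd0).mp this
  rw [e00, e01, e10, e11]
  refine ⟨?_, hm _ k2, hm _ k3, ?_⟩
  · have := hm _ k1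
    push_cast at this
    exact sub_eq_zero.mp this
  · have := hm _ k4
    push_cast at this
    exact sub_eq_zero.mp this

/-- **composition with `τ ↦ d τ`**: a function of level `m` becomes a function of level
`m * d`. -/
theorem IsAHb.comp_scale {m : ℕ} [NeZero m] (d : ℕ) [NeZero d] {f : Fun} (hf : IsAHb m f) :
    IsAHb (m * d) (fun τ => f (scale d τ)) := by
  have hd : 0 < d := Nat.pos_of_ne_zero (NeZero.ne d)
  refine ⟨?_, fun γ hγ => ?_, fun γ => ?_⟩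
  · exact (MDifferentiable.comp hf.1 (mdifferentiable_scale d) :
      MDifferentiable 𝓘(ℂ) 𝓘(ℂ) ((f : ℍ → ℂ) ∘ scale d))
  · -- invariance under `Γ(m d)`
    have hγ' : γ⁻¹ ∈ CongruenceSubgroup.Gamma (m * d) := inv_mem hγ
    have h3 : (((γ⁻¹ : SL(2, ℤ)) 1 0 : ℤ) : ZMod (m * d)) = 0 :=
      ((CongruenceSubgroup.Gamma_mem).mp hγ').2.2.1
    have h4 : ((m * d : ℕ) : ℤ) ∣ (γ⁻¹ : SL(2, ℤ)) 1 0 :=
      (ZMod.intCast_zmod_eq_zero_iff_dvd _ (m * d)).mp h3
    obtain ⟨c', hc'⟩ : ((d : ℕ) : ℤ) ∣ (γ⁻¹ : SL(2, ℤ)) 1 0 :=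
      (Dvd.intro_left _ (by push_cast; rfl)).trans h4
    ext τ
    show f (scale d (γ⁻¹ • τ)) = f (scale d τ)
    rw [scale_smul_eq d γ⁻¹ c' hc']
    have h5 := scaleConj_mem_Gamma hγ' c' hc'
    have h6 := hf.2.1 _ (inv_mem h5)
    have h7 := congrFun h6 (scale d τ)
    rw [Fun.sl_smul_apply, inv_inv] at h7
    exact h7
  · -- expansions of the translates
    obtain ⟨γ', a, e, b, ha, he, hae, hτ⟩ := exists_hermite d γ⁻¹
    obtain ⟨A, hA⟩ := hf.2.2 γ'⁻¹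
    obtain ⟨B, hB⟩ := exists_hasExp_comp_aff hA a e b ha he
    rw [hae] at hB
    refine ⟨B, ?_⟩
    refine hasExp_congr_fun hB fun τ => ?_
    show f (scale d (γ⁻¹ • τ)) = f ((γ'⁻¹)⁻¹ • aff a e b ha he τ)
    rw [hτ τ, inv_inv]

end Fermat.Agent.S48WKron
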