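/-
S48 wall (W), block G, part G-PORT / P6 Kron, seat K3b COSET (helper70): the coset
representatives `γ_b` of `(Γ₁(M) ∩ Γ₀(p)) \ Γ₁(M)` — pure `SL₂(ℤ)` group theory.

For a prime `p ∤ M` with Bezout data `p w - M k = 1`:

* `kronDelta  = [[1, k], [M, p w]] ∈ Γ₁(M)`  (lower right entry divisible by `p`),
* `kronDelta' = [[p, k], [M, w]]   ∈ Γ₀(M)`  (diagonal `≡ (p, p⁻¹)` modulo `M`),
* `p · δ(τ) = δ'(τ / p)`                      (`scale_kronDelta_smul`),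
* `kronGamma b = T^b δ⁻¹ ∈ Γ₁(M)`, and `p · γ_b⁻¹(τ) = δ'((τ - b)/p)`  (`scale_kronGamma_inv_smul`),
* `kron_cover` : every `g ∈ SL₂(ℤ)` is in `Γ₀(p)` or in `γ_b Γ₀(p)` for some `b < p`,
* `kron_hcov_of` : hence for subgroups `Γ₁(M) ≤ H`, `H ⊓ Γ₀(p) ≤ H'`: `H = H' ∪ ⋃_b γ_b H'`
  (the hypothesis `hcov` of `normProduct_abstract`, in group form), and its action form
  `kron_hcov_smul_of`.
-/
import Mathlib
import Fermat.Agent.S24.GensExp

set_option autoImplicit false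

noncomputable section

namespace Fermat.Agent.S48WKron

open UpperHalfPlane Fermat.Agent.S24 Fermat.Agent.S24.GensExp CongruenceSubgroup
open scoped MatrixGroups

/-- Bezout coefficient `w`: `p w - M k = 1`. -/
def kronW (M p : ℕ) : ℤ := Int.gcdA p M

/-- Bezout coefficient `k`: `p w - M k = 1`. -/
def kronK (M p : ℕ) : ℤ := -Int.gcdB p M

theorem kron_bezout {M p : ℕ} (hpM : Nat.Coprime p M) :
    (p : ℤ) * kronW M p - (M : ℤ) * kronK M p = 1 := by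
  have h := Int.gcd_eq_gcd_ab (p : ℤ) (M : ℤ)
  have h1 : Int.gcd (p : ℤ) (M : ℤ) = 1 := by
    rw [Int.gcd_natCast_natCast]
    exact hpM
  rw [h1] at h
  simp only [kronW, kronK]
  push_cast at h
  linarith

/-- `δ = [[1, k], [M, p w]]`. -/
def kronDelta (M p : ℕ) (hpM : Nat.Coprime p M) : SL(2, ℤ) :=
  ⟨!![1, kronK M p; (M : ℤ), (p : ℤ) * kronW M p], by
    rw [Matrix.det_fin_two_of]
    have := kron_bezout hpM
    linarith⟩

/-- `δ' = [[p, k], [M, w]]`. -/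
def kronDelta' (M p : ℕ) (hpM : Nat.Coprime p M) : SL(2, ℤ) :=
  ⟨!![(p : ℤ), kronK M p; (M : ℤ), kronW M p], by
    rw [Matrix.det_fin_two_of]
    have := kron_bezout hpM
    linarith⟩

@[simp] theorem kronDelta_00 (M p : ℕ) (hpM : Nat.Coprime p M) : kronDelta M p hpM 0 0 = 1 := rfl
@[simp] theorem kronDelta_01 (M p : ℕ) (hpM : Nat.Coprime p M) :
    kronDelta M p hpM 0 1 = kronK M p := rfl
@[simp] theorem kronDelta_10 (M p : ℕ) (hpM : Nat.Coprime p M) : kronDelta M p hpM 1 0 = M := rfl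
@[simp] theorem kronDelta_11 (M p : ℕ) (hpM : Nat.Coprime p M) :
    kronDelta M p hpM 1 1 = (p : ℤ) * kronW M p := rfl

@[simp] theorem kronDelta'_00 (M p : ℕ) (hpM : Nat.Coprime p M) : kronDelta' M p hpM 0 0 = p := rfl
@[simp] theorem kronDelta'_01 (M p : ℕ) (hpM : Nat.Coprime p M) :
    kronDelta' M p hpM 0 1 = kronK M p := rfl
@[simp] theorem kronDelta'_10 (M p : ℕ) (hpM : Nat.Coprime p M) : kronDelta' M p hpM 1 0 = M := rfl
@[simp] theorem kronDelta'_11 (M p : ℕ) (hpM : Nat.Coprime p M) :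
    kronDelta' M p hpM 1 1 = kronW M p := rfl

theorem kronDelta_mem_Gamma1 (M p : ℕ) (hpM : Nat.Coprime p M) :
    kronDelta M p hpM ∈ Gamma1 M := by
  rw [Gamma1_mem]
  refine ⟨by simp, ?_, by simp⟩
  have h := kron_bezout hpM
  have h2 : (p : ℤ) * kronW M p = 1 + (M : ℤ) * kronK M p := by linarith
  rw [kronDelta_11, h2]
  simp

theorem kronDelta'_mem_Gamma0 (M p : ℕ) (hpM : Nat.Coprime p M) :
    kronDelta' M p hpM ∈ Gamma0 M := by
  rw [Gamma0_mem]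
  simp

/-- the upper left entry of `δ'` is `p` modulo `M`. -/
theorem kronDelta'_00_cast (M p : ℕ) (hpM : Nat.Coprime p M) :
    ((kronDelta' M p hpM 0 0 : ℤ) : ZMod M) = (p : ZMod M) := by
  simp

/-- the lower right entry of `δ'` is `p⁻¹` modulo `M`. -/
theorem kronDelta'_11_cast_mul (M p : ℕ) (hpM : Nat.Coprime p M) :
    (p : ZMod M) * ((kronDelta' M p hpM 1 1 : ℤ) : ZMod M) = 1 := by
  have h := kron_bezout hpM
  have h2 : (p : ℤ) * kronW M p = 1 + (M : ℤ) * kronK M p := by linarith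
  have h3 := congrArg (Int.cast : ℤ → ZMod M) h2
  push_cast at h3
  simpa using h3

/-- `p · δ(τ) = δ'(τ / p)`. -/
theorem scale_kronDelta_smul (M p : ℕ) [NeZero p] (hpM : Nat.Coprime p M) (τ : ℍ) :
    scale p (kronDelta M p hpM • τ) =
      kronDelta' M p hpM • aff 1 p 0 Nat.one_pos (Nat.pos_of_ne_zero (NeZero.ne p)) τ := by
  apply UpperHalfPlane.ext
  have h1 := sl2_denom_ne_zero (kronDelta M p hpM) τ
  have h2 := sl2_denom_ne_zero (kronDelta' M p hpM)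
    (aff 1 p 0 Nat.one_pos (Nat.pos_of_ne_zero (NeZero.ne p)) τ)
  have hp : (p : ℂ) ≠ 0 := by exact_mod_cast NeZero.ne p
  rw [coe_scale, coe_sl2_smul, coe_sl2_smul, coe_aff]
  rw [coe_aff] at h2
  simp only [kronDelta_00, kronDelta_01, kronDelta_10, kronDelta_11, kronDelta'_00, kronDelta'_01,
    kronDelta'_10, kronDelta'_11] at h1 h2 ⊢
  push_cast at h1 h2 ⊢
  field_simp
  ring

/-- `γ_b = T^b δ⁻¹`. -/
def kronGamma (M p : ℕ) (hpM : Nat.Coprime p M) (b : ℕ) : SL(2, ℤ) :=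
  ModularGroup.T ^ b * (kronDelta M p hpM)⁻¹

theorem T_mem_Gamma1_kron (M : ℕ) : ModularGroup.T ∈ Gamma1 M := by
  rw [Gamma1_mem]
  simp [ModularGroup.T]

theorem kronGamma_mem_Gamma1 (M p : ℕ) (hpM : Nat.Coprime p M) (b : ℕ) :
    kronGamma M p hpM b ∈ Gamma1 M :=
  mul_mem (pow_mem (T_mem_Gamma1_kron M) b) (inv_mem (kronDelta_mem_Gamma1 M p hpM))

theorem kronGamma_inv (M p : ℕ) (hpM : Nat.Coprime p M) (b : ℕ) :
    (kronGamma M p hpM b)⁻¹ = kronDelta M p hpM * (ModularGroup.T ^ b)⁻¹ := by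
  rw [kronGamma, mul_inv_rev, inv_inv]

theorem coe_T_pow_inv_smul (b : ℕ) (τ : ℍ) :
    (((ModularGroup.T ^ b)⁻¹ • τ : ℍ) : ℂ) = (τ : ℂ) - b := by
  have h : (ModularGroup.T ^ b)⁻¹ = ModularGroup.T ^ (-(b : ℤ)) := by
    rw [zpow_neg, zpow_natCast]
  rw [h, coe_sl2_smul, ModularGroup.coe_T_zpow]
  simp
  ring

/-- `p · γ_b⁻¹(τ) = δ'((τ - b) / p)`. -/
theorem scale_kronGamma_inv_smul (M p : ℕ) [NeZero p] (hpM : Nat.Coprime p M) (b : ℕ) (τ : ℍ) :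
    scale p ((kronGamma M p hpM b)⁻¹ • τ) =
      kronDelta' M p hpM •
        aff 1 p (-(b : ℤ)) Nat.one_pos (Nat.pos_of_ne_zero (NeZero.ne p)) τ := by
  rw [kronGamma_inv, mul_smul, scale_kronDelta_smul]
  congr 1
  apply UpperHalfPlane.ext
  rw [coe_aff, coe_aff, coe_T_pow_inv_smul]
  push_cast
  ring

/-- the lower left entry of `γ_b⁻¹ g`. -/
theorem kronGamma_inv_mul_10 (M p : ℕ) (hpM : Nat.Coprime p M) (b : ℕ) (g : SL(2, ℤ)) :
    ((kronGamma M p hpM b)⁻¹ * g) 1 0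
      = (M : ℤ) * (g 0 0 - b * g 1 0) + (p : ℤ) * kronW M p * g 1 0 := by
  have hT : (ModularGroup.T ^ b)⁻¹ = ModularGroup.T ^ (-(b : ℤ)) := by
    rw [zpow_neg, zpow_natCast]
  rw [kronGamma_inv, hT]
  simp only [Matrix.SpecialLinearGroup.coe_mul, Matrix.mul_apply, Fin.sum_univ_two,
    ModularGroup.coe_T_zpow, kronDelta_10, kronDelta_11]
  simp
  ring

/-- **the covering**: every `g` is in `Γ₀(p)` or in `γ_b Γ₀(p)` for some `b < p`. -/
theorem kron_cover (M p : ℕ) (hp : p.Prime) (hpM : Nat.Coprime p M) (g : SL(2, ℤ)) :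
    g ∈ Gamma0 p ∨ ∃ b < p, (kronGamma M p hpM b)⁻¹ * g ∈ Gamma0 p := by
  have : Fact p.Prime := ⟨hp⟩
  by_cases hc : ((g 1 0 : ℤ) : ZMod p) = 0
  · left
    rw [Gamma0_mem]
    exact hc
  · right
    -- `b ≡ a c⁻¹`
    set b : ℕ := (((g 0 0 : ℤ) : ZMod p) * (((g 1 0 : ℤ) : ZMod p))⁻¹).val with hb
    refine ⟨b, ZMod.val_lt _, ?_⟩
    rw [Gamma0_mem, kronGamma_inv_mul_10]
    push_cast
    have hbc : ((b : ℕ) : ZMod p) = ((g 0 0 : ℤ) : ZMod p) * (((g 1 0 : ℤ) : ZMod p))⁻¹ := by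
      rw [hb, ZMod.natCast_zmod_val]
    rw [hbc, mul_assoc _ (((g 1 0 : ℤ) : ZMod p))⁻¹, inv_mul_cancel₀ hc, mul_one, sub_self,
      mul_zero, zero_add]
    simp

/-- **`hcov`, group form.** -/
theorem kron_hcov_of (M p : ℕ) (hp : p.Prime) (hpM : Nat.Coprime p M)
    (H H' : Subgroup SL(2, ℤ)) (hH : Gamma1 M ≤ H) (hH' : H ⊓ Gamma0 p ≤ H')
    (g : SL(2, ℤ)) (hg : g ∈ H) :
    g ∈ H' ∨ ∃ b < p, (kronGamma M p hpM b)⁻¹ * g ∈ H' := by
  rcases kron_cover M p hp hpM g with h | ⟨b, hb, h⟩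
  · exact Or.inl (hH' (Subgroup.mem_inf.mpr ⟨hg, h⟩))
  · refine Or.inr ⟨b, hb, hH' (Subgroup.mem_inf.mpr ⟨?_, h⟩)⟩
    exact H.mul_mem (H.inv_mem (hH (kronGamma_mem_Gamma1 M p hpM b))) hg

/-- **`hcov`, action form**: if `H ⊓ Γ₀(p)` fixes `y`, then every `g ∈ H` moves `y` to `y` or to
some `γ_b • y`. -/
theorem kron_hcov_smul_of {α : Type*} [MulAction SL(2, ℤ) α] (M p : ℕ) (hp : p.Prime)
    (hpM : Nat.Coprime p M) (H : Subgroup SL(2, ℤ)) (hH : Gamma1 M ≤ H) (S : Set α)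
    (hS : ∀ h ∈ H ⊓ Gamma0 p, ∀ y ∈ S, h • y = y) (g : SL(2, ℤ)) (hg : g ∈ H) :
    (∀ y ∈ S, g • y = y) ∨ ∃ b < p, ∀ y ∈ S, g • y = kronGamma M p hpM b • y := by
  rcases kron_hcov_of M p hp hpM H (H ⊓ Gamma0 p) hH le_rfl g hg with h | ⟨b, hb, h⟩
  · exact Or.inl fun y hy => hS g h y hy
  · refine Or.inr ⟨b, hb, fun y hy => ?_⟩
    have h1 := hS _ h y hy
    rw [mul_smul] at h1
    calc g • y = kronGamma M p hpM b • (kronGamma M p hpM b)⁻¹ • g • y := by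
          rw [smul_inv_smul]
      _ = kronGamma M p hpM b • y := by rw [h1]

end Fermat.Agent.S48WKron
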