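/-
S48 wall (W), block G, part G-PORT / P6 Kron, seat K3a CONJ-EXP (helper88): the conjugate
expansions, i.e. the hypothesis `hconj` of `normProduct_abstract` (`Kron/AlgAbs.lean`) at level
`Γ₁(M)`:

  `ex (γ_b • φ' (y(q^p))) = (δ y)(ζ^b u^{M M})`,   `u = e(τ/(M M p))`, `ζ = e(-1/p)`,

for the coset representatives `γ_b = T^b δ⁻¹` of `Kron/Coset.lean`, every embedding `φ'` of
`ℚ̄ · F₁(M)(q, q^p)` in the ambient field `LHb (M M p)` with expansions `x(u^{M M p})`, and every
diamond automorphism `δ = ⟨p⟩` (`fricke a ↦ fricke (p a)`).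

* `kcj_ringHom_ext`     : ring homomorphisms on `K · ℚ(G)` are determined by the constants and `G`;
* `kcj_hasExp_comp`     : substitution `u_{M₀} ∘ φ = u_M^k` in a Laurent expansion (explicit);
* `kcj_hasExp_conj_jd`, `kcj_hasExp_conj_fricke` : the expansions of `γ_b •` the generators;
* `kron_hconj`          : the statement `hconj`;  `kronZeta`, `kronZeta_isPrimitiveRoot`.
-/
import Mathlib
import Fermat.Agent.S48.W.G.Kron.Scale
import Fermat.Agent.S48.W.G.Kron.Coset
import Fermat.Agent.S48.W.G.Kron.FrickeAmb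
import Fermat.Agent.S48.W.Hecke
import Fermat.Agent.Lib.Kronecker.ConjGens2

set_option autoImplicit false
set_option linter.style.haveILetI false

noncomputable section

namespace Fermat.Agent.S48WKron

open ModularCurve UpperHalfPlane Fermat.Agent.S24 Fermat.Agent.S24.GensExp Fermat.Agent.S48W
  Fermat.Agent.S48WA1 Fermat.Agent.Kronecker
open scoped MatrixGroups

/-! ### extensionality for ring homomorphisms on `K · ℚ(G)` -/

section Ext

variable {K : Type*} [Field K] [Algebra ℚ K]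

/-- a subfield of `K((q))` containing the constants and the generators contains `K · ℚ(G)`. -/
theorem kcj_mem_subfield (G : Set (LaurentSeries ℚ)) (S : Subfield (LaurentSeries K))
    (hc : ∀ c : K, algebraMap K (LaurentSeries K) c ∈ S)
    (hg : ∀ g ∈ G, coeffEmb K g ∈ S) {x : LaurentSeries K}
    (hx : x ∈ laurentBaseChange K (IntermediateField.adjoin ℚ G)) : x ∈ S := by
  have hrat : ∀ z : LaurentSeries ℚ, z ∈ IntermediateField.adjoin ℚ G → coeffEmb K z ∈ S := by
    intro z hz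
    induction hz using IntermediateField.adjoin_induction with
    | mem x hx => exact hg x hx
    | algebraMap c =>
      have h1 : coeffEmb K (algebraMap ℚ (LaurentSeries ℚ) c) = ((c : ℚ) : LaurentSeries K) := by
        rw [eq_ratCast, map_ratCast]
      rw [h1]
      exact SubfieldClass.ratCast_mem S c
    | add x y _ _ hx hy =>
      rw [map_add]
      exact add_mem hx hy
    | inv x _ hx =>
      rw [map_inv₀]
      exact inv_mem hx
    | mul x y _ _ hx hy =>
      rw [map_mul]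
      exact mul_mem hx hy
  unfold laurentBaseChange at hx
  induction hx using IntermediateField.adjoin_induction with
  | mem x hx =>
    obtain ⟨y, hy, rfl⟩ := hx
    exact hrat y hy
  | algebraMap c => exact hc c
  | add x y _ _ hx hy => exact add_mem hx hy
  | inv x _ hx => exact inv_mem hx
  | mul x y _ _ hx hy => exact mul_mem hx hy

/-- two ring homomorphisms from `K · ℚ(G)` to a field that agree on the constants and on the
generators are equal. -/
theorem kcj_ringHom_ext (G : Set (LaurentSeries ℚ)) {R : Type*} [Field R]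
    (Φ₁ Φ₂ : ↥(laurentBaseChange K (IntermediateField.adjoin ℚ G)) →+* R)
    (hc : ∀ c : K, Φ₁ (algebraMap K _ c) = Φ₂ (algebraMap K _ c))
    (hg : ∀ g (hg : g ∈ G),
      Φ₁ ⟨coeffEmb K g,
          coeffEmb_mem_laurentBaseChange K (IntermediateField.subset_adjoin ℚ G hg)⟩ =
        Φ₂ ⟨coeffEmb K g,
          coeffEmb_mem_laurentBaseChange K (IntermediateField.subset_adjoin ℚ G hg)⟩)
    (x : ↥(laurentBaseChange K (IntermediateField.adjoin ℚ G))) : Φ₁ x = Φ₂ x := by
  let S : Subfield (LaurentSeries K) := (RingHom.eqLocusField Φ₁ Φ₂).map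
    (laurentBaseChange K (IntermediateField.adjoin ℚ G)).val.toRingHom
  have hS : ∀ y : LaurentSeries K, y ∈ S →
      ∀ hy : y ∈ laurentBaseChange K (IntermediateField.adjoin ℚ G),
        Φ₁ ⟨y, hy⟩ = Φ₂ ⟨y, hy⟩ := by
    intro y hy hyF
    obtain ⟨w, hw, hwy⟩ := (Subfield.mem_map).mp hy
    have : w = ⟨y, hyF⟩ := Subtype.ext hwy
    rw [← this]
    exact hw
  have hmem : (x : LaurentSeries K) ∈ S := by
    refine kcj_mem_subfield G S (fun c => ?_) (fun g hg' => ?_) x.2
    · exact (Subfield.mem_map).mpr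
        ⟨algebraMap K (laurentBaseChange K (IntermediateField.adjoin ℚ G)) c, hc c, rfl⟩
    · exact (Subfield.mem_map).mpr ⟨⟨coeffEmb K g,
        coeffEmb_mem_laurentBaseChange K (IntermediateField.subset_adjoin ℚ G hg')⟩,
        hg g hg', rfl⟩
  exact hS x hmem x.2

end Ext

/-! ### substitution `u ↦ u^k`, explicit form -/

theorem kcj_substPS_one (k : ℕ) (P : PowerSeries Kbar) :
    substPS 1 k P = HasExp.expandPS k P := by
  ext n
  rw [coeff_substPS, HasExp.expandPS, PowerSeries.coeff_mk]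
  split_ifs with h
  · rw [one_pow, one_mul]
  · rfl

/-- Substitution `u_{M₀} ∘ φ = u_M^k` in a Laurent expansion: the expansion is `A(u^k)`. -/
theorem kcj_hasExp_comp {M₀ M : ℕ} {g : Fun} {A : LaurentSeries Kbar}
    (hg : HasExp M₀ g A) (φ : ℍ → ℍ) (k : ℕ) [NeZero k]
    (hφ : ∀ τ, uParam M₀ (φ τ) = uParam M τ ^ k) :
    HasExp M (fun τ => g (φ τ)) (qExpand Kbar k A) := by
  obtain ⟨μ, P, rfl, hP⟩ := hg
  have hk : 0 < k := Nat.pos_of_ne_zero (NeZero.ne k)
  have h1 := hasPExp_substPS hP φ 1 (by rw [map_one, norm_one]) k hk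
    (fun τ => by rw [hφ τ, map_one, one_mul])
  rw [kcj_substPS_one] at h1
  refine ⟨k * μ, HasExp.expandPS k P, ?_, HasExp.pexp_congr h1 fun τ => ?_⟩
  · have e : (k : ℤ) * -(μ : ℤ) = -((k * μ : ℕ) : ℤ) := by push_cast; ring
    rw [map_mul, qExpand_single, HasExp.qExpand_ofPowerSeries, e]
  · show g (φ τ) * uParam M τ ^ (k * μ) = g (φ τ) * uParam M₀ (φ τ) ^ μ
    rw [hφ τ, pow_mul]

/-- `q(τ/p) = u_{N p}(τ)^N`. -/
theorem kcj_uParam_aff (N p : ℕ) [NeZero N] [NeZero p] (τ : ℍ) :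
    uParam 1 (aff 1 p 0 Nat.one_pos (Nat.pos_of_ne_zero (NeZero.ne p)) τ)
      = uParam (N * p) τ ^ N := by
  rw [uParam_one_aff (N * p) 1 p N 0 Nat.one_pos (Nat.pos_of_ne_zero (NeZero.ne p))
    (mul_comm N p) (Nat.pos_of_ne_zero (NeZero.ne N))]
  simp

/-- `aff 1 p 0 (T^{-b} τ) = aff 1 p (-b) τ`. -/
theorem kcj_aff_T_pow_inv (p : ℕ) [NeZero p] (b : ℕ) (τ : ℍ) :
    aff 1 p 0 Nat.one_pos (Nat.pos_of_ne_zero (NeZero.ne p)) ((ModularGroup.T ^ b)⁻¹ • τ)
      = aff 1 p (-(b : ℤ)) Nat.one_pos (Nat.pos_of_ne_zero (NeZero.ne p)) τ := by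
  apply UpperHalfPlane.ext
  rw [coe_aff, coe_aff, coe_T_pow_inv_smul]
  push_cast
  ring

/-- the expansion of `τ ↦ f((τ - b)/p)` in `u = e(τ/(N p))`: `A(ζ^b u^N)`, `ζ = e(-1/p)`. -/
theorem kcj_hasExp_comp_aff (N p : ℕ) [NeZero N] [NeZero p] [NeZero (N * p)] (z : Kbarˣ)
    (hz : iota (z : Kbar) = Complex.exp (2 * Real.pi * Complex.I / ((N * p : ℕ) : ℂ)))
    {f : Fun} {A : LaurentSeries Kbar} (hf : HasExp 1 f A) (b : ℕ) :
    HasExp (N * p)
      (fun τ => f (aff 1 p (-(b : ℤ)) Nat.one_pos (Nat.pos_of_ne_zero (NeZero.ne p)) τ))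
      (qExpand Kbar N (scaleL ((z⁻¹ ^ N) ^ b) A)) := by
  have h0 : HasExp (N * p)
      (fun τ => f (aff 1 p 0 Nat.one_pos (Nat.pos_of_ne_zero (NeZero.ne p)) τ))
      (qExpand Kbar N A) :=
    kcj_hasExp_comp hf _ N (kcj_uParam_aff N p)
  have h1 := hasExp_T_pow_smul (N * p) z hz h0 b
  rw [scaleL_qExpand, pow_right_comm] at h1
  refine hasExp_congr_fun h1 fun τ => ?_
  show _ = f (aff 1 p 0 _ _ ((ModularGroup.T ^ b)⁻¹ • τ))
  rw [kcj_aff_T_pow_inv]

/-! ### the root of unity -/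

/-- `z = e(1/m)` as a unit of `ℚ̄`. -/
def kronRoot (m : ℕ) [NeZero m] : Kbarˣ :=
  Units.mk0 (HasExp.exists_iota_eq_exp m).choose (by
    intro h
    have h1 := (HasExp.exists_iota_eq_exp m).choose_spec
    rw [h, map_zero] at h1
    exact Complex.exp_ne_zero _ h1.symm)

theorem iota_kronRoot (m : ℕ) [NeZero m] :
    iota (kronRoot m : Kbar) = Complex.exp (2 * Real.pi * Complex.I / m) :=
  (HasExp.exists_iota_eq_exp m).choose_spec

theorem kronRoot_isPrimitiveRoot (m : ℕ) [NeZero m] : IsPrimitiveRoot (kronRoot m) m := by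
  have h1 : IsPrimitiveRoot (iota (kronRoot m : Kbar)) m := by
    rw [iota_kronRoot]
    exact Complex.isPrimitiveRoot_exp m (NeZero.ne m)
  have h2 : IsPrimitiveRoot (kronRoot m : Kbar) m := h1.of_map_of_injective iota_injective
  exact IsPrimitiveRoot.coe_units_iff.mp h2

/-- `ζ = e(-1/p) = (z⁻¹)^{M M}`, `z = e(1/(M M p))`. -/
def kronZeta (M p : ℕ) [NeZero (M * M * p)] : Kbarˣ := (kronRoot (M * M * p))⁻¹ ^ (M * M)

theorem kronZeta_isPrimitiveRoot (M p : ℕ) [NeZero (M * M * p)] :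
    IsPrimitiveRoot (kronZeta M p) p := by
  have h := (kronRoot_isPrimitiveRoot (M * M * p)).inv
  have hp : p ≠ 0 := fun h0 => NeZero.ne (M * M * p) (by rw [h0, mul_zero])
  exact h.pow (Nat.pos_of_ne_zero (NeZero.ne (M * M * p))) rfl

/-! ### the Fricke generators -/

/-- `f_a ∘ p`, `τ ↦ F_{(a,0)}(M p τ)`. -/
def kronFrickeP (M p : ℕ) [NeZero M] [NeZero p] (a : ℤ) : Fun :=
  fun τ => frickeOne M a (scale p τ)

/-- `(γ_b • (f_a ∘ p))(τ) = f_{a p}((τ - b)/p)`. -/
theorem kcj_kronGamma_smul_fricke (M p : ℕ) [NeZero M] [NeZero p] (hpM : Nat.Coprime p M)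
    (b : ℕ) (a : ℤ) (τ : ℍ) :
    (kronGamma M p hpM b • kronFrickeP M p a) τ
      = frickeOne M (a * p)
          (aff 1 p (-(b : ℤ)) Nat.one_pos (Nat.pos_of_ne_zero (NeZero.ne p)) τ) := by
  show frickeOne M a (scale p ((kronGamma M p hpM b)⁻¹ • τ)) = _
  rw [scale_kronGamma_inv_smul, frickeOneSmul M a _ (kronDelta'_mem_Gamma0 M p hpM),
    kronDelta'_00]

theorem kcj_not_dvd_mul (M p : ℕ) (hpM : Nat.Coprime p M) {a : ℤ} (ha : ¬ (M : ℤ) ∣ a) :
    ¬ (M : ℤ) ∣ a * p := by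
  intro h
  apply ha
  have hc : IsCoprime (M : ℤ) (p : ℤ) := by
    rw [Int.isCoprime_iff_gcd_eq_one, Int.gcd_natCast_natCast]
    exact hpM.symm
  exact hc.dvd_of_dvd_mul_right h

/-- the expansion of `f_a ∘ p` in `u = e(τ/(M M p))`. -/
theorem kcj_hasExp_fricke_scale (M p : ℕ) [NeZero M] [NeZero p] [NeZero (M * M * p)]
    (a : ℤ) (ha : ¬ (M : ℤ) ∣ a) :
    HasExp (M * M * p) (kronFrickeP M p a)
      (qExpand Kbar (M * M * p) (qExpand Kbar p (coeffEmb Kbar (fricke M (a : ZMod M))))) := by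
  haveI : NeZero (M * M * p * p) := ⟨mul_ne_zero (NeZero.ne _) (NeZero.ne p)⟩
  rw [qExpand_qExpand]
  exact kcj_hasExp_comp (frickeOneExp M a ha) (scale p) (M * M * p * p)
    (fun τ => uParam_one_scale (M * M * p) p τ)

/-- the expansion of `γ_b • (f_a ∘ p)`: `fricke (p a)(ζ^b u^{M M})`. -/
theorem kcj_hasExp_conj_fricke (M p : ℕ) [NeZero M] [NeZero p] [NeZero (M * M)]
    [NeZero (M * M * p)] (hpM : Nat.Coprime p M) (b : ℕ) (a : ℤ) (ha : ¬ (M : ℤ) ∣ a) :
    HasExp (M * M * p) (kronGamma M p hpM b • kronFrickeP M p a)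
      (qExpand Kbar (M * M) (scaleL (kronZeta M p ^ b)
        (coeffEmb Kbar (fricke M ((p : ZMod M) * (a : ZMod M)))))) := by
  have h1 := kcj_hasExp_comp_aff (M * M) p (kronRoot (M * M * p))
    (iota_kronRoot (M * M * p)) (frickeOneExp M (a * p) (kcj_not_dvd_mul M p hpM ha)) b
  have e : (((a * p : ℤ)) : ZMod M) = (p : ZMod M) * (a : ZMod M) := by
    push_cast
    ring
  rw [e] at h1
  exact hasExp_congr_fun h1 (kcj_kronGamma_smul_fricke M p hpM b a)

/-! ### the generators `j(q^d)` -/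

theorem kcj_scale_mul (d p : ℕ) [NeZero d] [NeZero p] [NeZero (d * p)] (τ : ℍ) :
    scale (d * p) τ = scale d (scale p τ) := by
  apply UpperHalfPlane.ext
  rw [coe_scale, coe_scale, coe_scale]
  push_cast
  ring

theorem kcj_scale_aff (d p : ℕ) [NeZero d] [NeZero p] (τ : ℍ) :
    scale d (aff 1 p 0 Nat.one_pos (Nat.pos_of_ne_zero (NeZero.ne p)) τ)
      = aff d p 0 (Nat.pos_of_ne_zero (NeZero.ne d)) (Nat.pos_of_ne_zero (NeZero.ne p)) τ := by
  apply UpperHalfPlane.ext
  rw [coe_scale, coe_aff, coe_aff]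
  push_cast
  ring

/-- `(δ⁻¹ • j_{d p})(τ) = j(d τ / p)` for `d ∣ M`. -/
theorem kcj_kronDelta_inv_smul_jd (M p d : ℕ) [NeZero p] [NeZero d] [NeZero (d * p)]
    (hpM : Nat.Coprime p M) (hd : d ∣ M) :
    ((kronDelta M p hpM)⁻¹ • jd (d * p) : Fun) =
      fun τ => jFun (aff d p 0 (Nat.pos_of_ne_zero (NeZero.ne d))
        (Nat.pos_of_ne_zero (NeZero.ne p)) τ) := by
  obtain ⟨c, hc⟩ := hd
  have hc' : kronDelta' M p hpM 1 0 = (d : ℤ) * (c : ℤ) := by
    rw [kronDelta'_10, hc]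
    push_cast
    rfl
  funext τ
  show jd (d * p) ((kronDelta M p hpM)⁻¹⁻¹ • τ) = _
  rw [inv_inv]
  show jFun (scale (d * p) (kronDelta M p hpM • τ)) = _
  rw [kcj_scale_mul, scale_kronDelta_smul, scale_smul_eq d _ (c : ℤ) hc', jFun_smul_pt,
    kcj_scale_aff]

/-- the expansion of `γ_b • j_{d p}`: `j_d(ζ^b u^{M M})`. -/
theorem kcj_hasExp_conj_jd (M p d : ℕ) [NeZero M] [NeZero p] [NeZero d] [NeZero (d * p)]
    [NeZero (M * M)] [NeZero (M * M * p)] (hpM : Nat.Coprime p M) (hd : d ∣ M) (b : ℕ) :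
    HasExp (M * M * p) (kronGamma M p hpM b • jd (d * p))
      (qExpand Kbar (M * M) (scaleL (kronZeta M p ^ b) (qExpand Kbar d (jqModC Kbar)))) := by
  unfold kronGamma
  rw [mul_smul, kcj_kronDelta_inv_smul_jd M p d hpM hd]
  have h1 := hasExp_T_pow_smul (M * M * p) (kronRoot (M * M * p)) (iota_kronRoot (M * M * p))
    (hasExp_jFun_aff (M * M) d p) b
  have e : scaleL ((kronRoot (M * M * p))⁻¹ ^ b) (qExpand Qb (d * (M * M)) (jqModC Qb)) =
      qExpand Qb (M * M) (scaleL (kronZeta M p ^ b) (qExpand Qb d (jqModC Qb))) := by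
    unfold kronZeta
    rw [qExpand_congr (mul_comm d (M * M)), ← qExpand_qExpand, scaleL_qExpand, pow_right_comm]
  rw [← e]
  exact h1

/-- the expansion of `j_{d p}` in `u = e(τ/(M M p))`. -/
theorem kcj_hasExp_jd_scale (M p d : ℕ) [NeZero M] [NeZero p] [NeZero d] [NeZero (d * p)]
    [NeZero (M * M * p)] (hd : d ∣ M) :
    HasExp (M * M * p) (jd (d * p))
      (qExpand Kbar (M * M * p)
        (qExpand Kbar p (coeffEmb Kbar (qExpand ℚ d jq)))) := by
  have hd' : d * p ∣ M * M * p := Nat.mul_dvd_mul_right (hd.trans (dvd_mul_left M M)) p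
  have h1 := hasExp_jd (M * M * p) (d * p) hd'
  have e : coeffEmb Kbar (qExpand ℚ d jq) = qExpand Kbar d (jqModC Kbar) := by
    unfold coeffEmb
    rw [coeffMap_qExpand_w, ← jqModC_rat, coeffMap_jqModC]
  rw [e, qExpand_qExpand, qExpand_qExpand, qExpand_congr (show M * M * p * p * d
    = M * M * p * (d * p) by ring)]
  exact h1

theorem kcj_isAHb_jd_scale (M p d : ℕ) [NeZero M] [NeZero p] [NeZero d] [NeZero (d * p)]
    [NeZero (M * M * p)] (hd : d ∣ M) : IsAHb (M * M * p) (jd (d * p)) :=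
  AL_le_AHb (M * M * p)
    (jd_mem_AL (Nat.mul_dvd_mul_right (hd.trans (dvd_mul_left M M)) p))

/-! ### the conjugate expansions -/

/-- an element of the ambient field with the expansion of a function of the ambient ring is this
function; hence the expansion of its conjugates. -/
theorem kcj_expLHb_smul {m : ℕ} [NeZero m] (x : LHb m) (F : Fun) (hF : IsAHb m F)
    {A B : LaurentSeries Kbar} (hx : expLHb m x = A) (hFA : HasExp m F A) (γ : SL(2, ℤ))
    (hB : HasExp m (γ • F) B) : expLHb m (γ • x) = B := by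
  have h1 : x = LHb.ofFun F hF := by
    apply expLHb_injective m
    rw [hx, expLHb_ofFun F hF hFA]
  rw [h1, LHb.smul_ofFun]
  exact expLHb_ofFun _ _ hB

theorem kcj_coeffEmb_jqd (d : ℕ) [NeZero d] :
    coeffEmb Kbar (qExpand ℚ d jq) = qExpand Kbar d (jqModC Kbar) := by
  unfold coeffEmb
  rw [coeffMap_qExpand_w, ← jqModC_rat, coeffMap_jqModC]

theorem kcj_compScale : CompScale := fun _ d _ _ _ _ hf => IsAHb.comp_scale d hf

/-- **K3a (`hconj`)**: the expansions of the conjugates `γ_b • φ'(y(q^p))`. -/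
theorem kron_hconj (M p : ℕ) [NeZero M] [NeZero p] [NeZero (M * M)] [NeZero (M * M * p)]
    (hpM : Nat.Coprime p M)
    (δ : FOneBar M ≃ₐ[Kbar] FOneBar M) (hδ : IsDiamond M (ZMod.unitOfCoprime p hpM) δ)
    (φ' : laurentBaseChange Kbar (FOneP M p) →ₐ[Kbar] LHb (M * M * p))
    (hex : ∀ x : laurentBaseChange Kbar (FOneP M p),
      expLHb (M * M * p) (φ' x) = qExpand Kbar (M * M * p) (x : LaurentSeries Kbar))
    (b : ℕ) (y : laurentBaseChange Kbar (FOne M)) :
    expLHb (M * M * p) (kronGamma M p hpM b •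
        φ' (qSeriesBeta Kbar p (fun _ hy => qExpand_mem_FOneP M p hy) y)) =
      qExpand Kbar (M * M) (scaleL (kronZeta M p ^ b)
        ((δ y : laurentBaseChange Kbar (FOne M)) : LaurentSeries Kbar)) := by
  let Φ₁ : ↥(laurentBaseChange Kbar (FOne M)) →+* LaurentSeries Kbar :=
    ((expLHb (M * M * p)).toRingHom).comp
      ((MulSemiringAction.toRingHom SL(2, ℤ) (LHb (M * M * p)) (kronGamma M p hpM b)).comp
        (φ'.toRingHom.comp
          (qSeriesBeta Kbar p (fun _ hy => qExpand_mem_FOneP M p hy)).toRingHom))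
  let Φ₂ : ↥(laurentBaseChange Kbar (FOne M)) →+* LaurentSeries Kbar :=
    (qExpand Kbar (M * M)).comp ((scaleL (kronZeta M p ^ b)).comp
      ((laurentBaseChange Kbar (FOne M)).val.toRingHom.comp δ.toAlgHom.toRingHom))
  have hc : ∀ c : Kbar, Φ₁ (algebraMap Kbar _ c) = Φ₂ (algebraMap Kbar _ c) := by
    intro c
    show expLHb (M * M * p) (kronGamma M p hpM b •
        φ' (qSeriesBeta Kbar p (fun _ hy => qExpand_mem_FOneP M p hy) (algebraMap Kbar _ c))) =
      qExpand Kbar (M * M) (scaleL (kronZeta M p ^ b)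
        ((δ (algebraMap Kbar _ c) : laurentBaseChange Kbar (FOne M)) : LaurentSeries Kbar))
    rw [AlgHom.commutes, AlgHom.commutes, smul_algebraMap, AlgHom.commutes, AlgEquiv.commutes]
    show _ = qExpand Kbar (M * M) (scaleL (kronZeta M p ^ b)
      (algebraMap Kbar (LaurentSeries Kbar) c))
    rw [scaleL_algebraMap, qExpand_algebraMap]
  have hg : ∀ g (hg : g ∈ genOne M),
      Φ₁ ⟨coeffEmb Kbar g,
          coeffEmb_mem_laurentBaseChange Kbar (IntermediateField.subset_adjoin ℚ _ hg)⟩ =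
        Φ₂ ⟨coeffEmb Kbar g,
          coeffEmb_mem_laurentBaseChange Kbar (IntermediateField.subset_adjoin ℚ _ hg)⟩ := by
    intro g hg
    rcases hg with ⟨d, hdne, hd, rfl⟩ | ⟨a, ha, rfl⟩
    · -- `j(q^d)`
      haveI := hdne
      haveI : NeZero (d * p) := ⟨mul_ne_zero (NeZero.ne d) (NeZero.ne p)⟩
      have hmem : coeffEmb Kbar (qExpand ℚ d jq) ∈ FOneBar M :=
        coeffEmb_mem_laurentBaseChange Kbar
          (IntermediateField.subset_adjoin ℚ _ (Or.inl ⟨d, hdne, hd, rfl⟩))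
      have h1 := hδ.1 (qExpand ℚ d jq) ⟨d, hdne, hd, rfl⟩ hmem
      show expLHb (M * M * p) (kronGamma M p hpM b •
          φ' (qSeriesBeta Kbar p (fun _ hy => qExpand_mem_FOneP M p hy)
            ⟨coeffEmb Kbar (qExpand ℚ d jq), hmem⟩)) =
        qExpand Kbar (M * M) (scaleL (kronZeta M p ^ b)
          ((δ ⟨coeffEmb Kbar (qExpand ℚ d jq), hmem⟩ : laurentBaseChange Kbar (FOne M)) :
            LaurentSeries Kbar))
      rw [h1]
      show _ = qExpand Kbar (M * M) (scaleL (kronZeta M p ^ b)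
        (coeffEmb Kbar (qExpand ℚ d jq)))
      have h3 := kcj_hasExp_conj_jd M p d hpM hd b
      rw [← kcj_coeffEmb_jqd] at h3
      exact kcj_expLHb_smul _ (jd (d * p)) (kcj_isAHb_jd_scale M p d hd) (hex _)
        (kcj_hasExp_jd_scale M p d hd) _ h3
    · -- the Fricke functions
      have hmem : coeffEmb Kbar (fricke M a) ∈ FOneBar M :=
        coeffEmb_mem_laurentBaseChange Kbar
          (IntermediateField.subset_adjoin ℚ _ (Or.inr ⟨a, ha, rfl⟩))
      have hpa : (p : ZMod M) * a ≠ 0 := by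
        intro h0
        apply ha
        have hu : IsUnit (p : ZMod M) := (ZMod.isUnit_iff_coprime p M).mpr hpM
        exact (hu.mul_right_eq_zero).mp h0
      have hmem' : coeffEmb Kbar (fricke M ((p : ZMod M) * a)) ∈ FOneBar M :=
        coeffEmb_mem_laurentBaseChange Kbar
          (IntermediateField.subset_adjoin ℚ _ (Or.inr ⟨_, hpa, rfl⟩))
      have h1 := hδ.2 a ha hmem (by rw [ZMod.coe_unitOfCoprime]; exact hmem')
      -- an integer lift of `a`
      have hcast : (((a.val : ℕ) : ℤ) : ZMod M) = a := by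
        rw [Int.cast_natCast, ZMod.natCast_zmod_val]
      have ha' : ¬ (M : ℤ) ∣ ((a.val : ℕ) : ℤ) := by
        rw [← ZMod.intCast_zmod_eq_zero_iff_dvd, hcast]
        exact ha
      show expLHb (M * M * p) (kronGamma M p hpM b •
          φ' (qSeriesBeta Kbar p (fun _ hy => qExpand_mem_FOneP M p hy)
            ⟨coeffEmb Kbar (fricke M a), hmem⟩)) =
        qExpand Kbar (M * M) (scaleL (kronZeta M p ^ b)
          ((δ ⟨coeffEmb Kbar (fricke M a), hmem⟩ : laurentBaseChange Kbar (FOne M)) :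
            LaurentSeries Kbar))
      rw [h1]
      show _ = qExpand Kbar (M * M) (scaleL (kronZeta M p ^ b)
        (coeffEmb Kbar (fricke M (((ZMod.unitOfCoprime p hpM : (ZMod M)ˣ) : ZMod M) * a))))
      rw [ZMod.coe_unitOfCoprime]
      have h2 := kcj_hasExp_fricke_scale M p ((a.val : ℕ) : ℤ) ha'
      have h3 := kcj_hasExp_conj_fricke M p hpM b ((a.val : ℕ) : ℤ) ha'
      rw [hcast] at h2 h3
      exact kcj_expLHb_smul _ (kronFrickeP M p ((a.val : ℕ) : ℤ))
        (isAHb_frickeOne_scale kcj_compScale M p _ ha') (hex _) h2 _ h3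
  exact kcj_ringHom_ext (genOne M) Φ₁ Φ₂ hc hg y

/-- `hconj` in the exact form of `normProduct_abstract` (`ex = expLHb` as a ring
homomorphism, `γ = kronGamma M p hpM`, `ζ = kronZeta M p`, `m₀ = M * M`). -/
theorem kron_hconj_ringHom (M p : ℕ) [NeZero M] [NeZero p] [NeZero (M * M)]
    [NeZero (M * M * p)] (hpM : Nat.Coprime p M)
    (δ : FOneBar M ≃ₐ[Kbar] FOneBar M) (hδ : IsDiamond M (ZMod.unitOfCoprime p hpM) δ)
    (φ' : laurentBaseChange Kbar (FOneP M p) →ₐ[Kbar] LHb (M * M * p))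
    (hex : ∀ x : laurentBaseChange Kbar (FOneP M p),
      ((expLHb (M * M * p) : LHb (M * M * p) →+* LaurentSeries Kbar)) (φ' x) =
        qExpand Kbar (M * M * p) (x : LaurentSeries Kbar)) :
    ∀ b < p, ∀ y : laurentBaseChange Kbar (FOne M),
      ((expLHb (M * M * p) : LHb (M * M * p) →+* LaurentSeries Kbar))
          (kronGamma M p hpM b •
            φ' (qSeriesBeta Kbar p (fun _ hy => qExpand_mem_FOneP M p hy) y)) =
        qExpand Kbar (M * M) (scaleL (kronZeta M p ^ b)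
          ((δ y : laurentBaseChange Kbar (FOne M)) : LaurentSeries Kbar)) :=
  fun b _ y => kron_hconj M p hpM δ hδ φ' hex b y

end Fermat.Agent.S48WKron
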