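/-
S48 wall (W), block G, part G-PORT / P6 Kron, seat K2 EMB (helper42).

The embeddings of `F = ℚ̄ F₁(M)` and `F' = ℚ̄ F(Γ₁(M) ∩ Γ₀(p))` in the ambient field
`L = LHb (m₀ p)` (`M ∣ m₀`), through the expansion at `∞`:
* `embOne FI`  : `FOneBar M →ₐ L`,             `expLHb (embOne x)  = x(u^m)`,
* `embOneB FI` : `FOneBar M →ₐ L`,             `expLHb (embOneB x) = x(u^{m p})`   (`x ↦ x(pτ)`),
* `embOneP FI` : `ℚ̄ · FOneP M p →ₐ L`,         `expLHb (embOneP x) = x(u^m)`,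
with `embOneP ∘ α = embOne`, `embOneP ∘ β = embOneB`.
Input: `FrickeInputs M m₀` (the analytic Fricke functions `frickeOne M a`: they are in the ambient
ring of level `m₀`, their `q`-expansion is the formal `fricke M a`, and `Γ₀(M)` permutes them);
this is the deliverable of seat K1 (from hub A1).
-/
import Mathlib
import Fermat.Agent.S48.W.G.Kron.Amb
import Fermat.Agent.S48.W.G.Kron.Scale
import Fermat.Agent.S48.W.G.Kron.EmbAbs
import Fermat.Agent.S48.W.G.Kron.ScaleExp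
import Fermat.Agent.S48.W.A1.Defs
import Fermat.Agent.S48.W.Hecke

set_option autoImplicit false

noncomputable section

namespace Fermat.Agent.S48WKron

open UpperHalfPlane CongruenceSubgroup ModularCurve Fermat.Agent.S24 Fermat.Agent.S48W
  Fermat.Agent.S48WA1
open scoped MatrixGroups

/-- **the deliverable of seat K1** at `(M, m₀)`: the analytic Fricke functions `f_a = frickeOne M a`
are modular functions of level `m₀` (holomorphic, expansions over `ℚ̄` at all cusps), the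
`q`-expansion of `f_a` is the formal `fricke M a`, and `f_a ∘ γ = f_{α a}` for
`γ = [α β; γ' δ] ∈ Γ₀(M)`. -/
structure FrickeInputs (M m₀ : ℕ) [NeZero M] [NeZero m₀] : Prop where
  isAHb : ∀ a : ℤ, ¬ (M : ℤ) ∣ a → IsAHb m₀ (frickeOne M a)
  hasExp : ∀ a : ℤ, ¬ (M : ℤ) ∣ a →
    HasExp 1 (frickeOne M a) (coeffEmb Kbar (fricke M (a : ZMod M)))
  smul : ∀ (a : ℤ) (γ : SL(2, ℤ)), γ ∈ Gamma0 M →
    ∀ τ : ℍ, frickeOne M a (γ • τ) = frickeOne M (a * γ 0 0) τ

section Gens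

variable {M m₀ : ℕ} [NeZero M] [NeZero m₀] (p : ℕ) [NeZero p]
variable (FI : FrickeInputs M m₀)

/-- the Fricke function `f_a` in the ambient field of level `m₀ p`. -/
def frAmb (a : ℤ) (ha : ¬ (M : ℤ) ∣ a) : LHb (m₀ * p) :=
  LHb.ofFun (frickeOne M a) ((FI.isAHb a ha).mono (dvd_mul_right m₀ p))

/-- the function `f_a(pτ)` in the ambient field of level `m₀ p`. -/
def frAmbB (a : ℤ) (ha : ¬ (M : ℤ) ∣ a) : LHb (m₀ * p) :=
  LHb.ofFun (fun τ => frickeOne M a (scale p τ)) ((FI.isAHb a ha).comp_scale p)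

theorem expLHb_frAmb (a : ℤ) (ha : ¬ (M : ℤ) ∣ a) :
    expLHb (m₀ * p) (frAmb p FI a ha) =
      qExpand Kbar (m₀ * p) (coeffEmb Kbar (fricke M (a : ZMod M))) :=
  expLHb_ofFun _ _ (hasExp_of_one (FI.hasExp a ha) (m₀ * p))

theorem expLHb_frAmbB (a : ℤ) (ha : ¬ (M : ℤ) ∣ a) :
    expLHb (m₀ * p) (frAmbB p FI a ha) =
      qExpand Kbar (m₀ * p * p) (coeffEmb Kbar (fricke M (a : ZMod M))) :=
  expLHb_ofFun _ _ (hasExp_scale_of_one (FI.hasExp a ha) (m₀ * p) p)

end Gens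

/-- a lift of `a : ZMod M`, `a ≠ 0`, to `ℤ`. -/
theorem not_dvd_val {M : ℕ} [NeZero M] {a : ZMod M} (ha : a ≠ 0) :
    ¬ (M : ℤ) ∣ ((a.val : ℕ) : ℤ) := by
  intro h
  apply ha
  have h1 := (ZMod.intCast_zmod_eq_zero_iff_dvd ((a.val : ℕ) : ℤ) M).mpr h
  rwa [Int.cast_natCast, ZMod.natCast_zmod_val] at h1

theorem cast_val {M : ℕ} [NeZero M] (a : ZMod M) : ((((a.val : ℕ) : ℤ)) : ZMod M) = a := by
  rw [Int.cast_natCast, ZMod.natCast_zmod_val]

section Emb

variable {M m₀ : ℕ} [NeZero M] [NeZero m₀] (p : ℕ) [NeZero p]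

variable (hMm : M ∣ m₀) (FI : FrickeInputs M m₀)

include hMm FI in
/-- the generators of `F₁(M)` are expansions of elements of the ambient field. -/
theorem genInRange_one :
    GenInRange (expLHb (m₀ * p)) (qExpandAlgHomC Kbar (m₀ * p)) (genOne M) := by
  rintro g (⟨d, hdne, hd, rfl⟩ | ⟨a, ha, rfl⟩)
  · have hd' : d ∣ m₀ * p := (hd.trans hMm).trans (dvd_mul_right m₀ p)
    rw [EmbFHom.qExpand_coeffEmb_jqd, ← expLHb_jdLHb (m₀ * p) d hd']
    exact AlgHom.mem_fieldRange.mpr ⟨_, rfl⟩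
  · have h1 := expLHb_frAmb p FI _ (not_dvd_val ha)
    rw [cast_val] at h1
    rw [qExpandAlgHomC_apply, ← h1]
    exact AlgHom.mem_fieldRange.mpr ⟨_, rfl⟩

include hMm FI in
/-- the functions `g(pτ)`, `g` a generator of `F₁(M)`, are expansions of elements of the ambient
field. -/
theorem genInRange_oneB :
    GenInRange (expLHb (m₀ * p)) (qExpandAlgHomC Kbar (m₀ * p * p)) (genOne M) := by
  rintro g (⟨d, hdne, hd, rfl⟩ | ⟨a, ha, rfl⟩)
  · haveI : NeZero (p * d) := ⟨Nat.mul_ne_zero (NeZero.ne p) (NeZero.ne d)⟩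
    have hd' : p * d ∣ m₀ * p := by
      rw [mul_comm p d]
      exact Nat.mul_dvd_mul (hd.trans hMm) dvd_rfl
    have h1 := expLHb_jdLHb (m₀ * p) (p * d) hd'
    rw [EmbFHom.qExpand_coeffEmb_jqd,
      qExpand_congr (show m₀ * p * p * d = m₀ * p * (p * d) by ring), ← h1]
    exact AlgHom.mem_fieldRange.mpr ⟨_, rfl⟩
  · have h1 := expLHb_frAmbB p FI _ (not_dvd_val ha)
    rw [cast_val] at h1
    rw [qExpandAlgHomC_apply, ← h1]
    exact AlgHom.mem_fieldRange.mpr ⟨_, rfl⟩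

/-- **the embedding of `F = ℚ̄ F₁(M)`** in the ambient field of level `m₀ p`. -/
def embOne : ↥(FOneBar M) →ₐ[Kbar] LHb (m₀ * p) :=
  embAbs (genInRange_one p hMm FI)

/-- `expLHb (embOne x) = x(u^m)`. -/
theorem expLHb_embOne (x : ↥(FOneBar M)) :
    expLHb (m₀ * p) (embOne p hMm FI x) = qExpand Kbar (m₀ * p) (x : LaurentSeries Kbar) :=
  e_embAbs (genInRange_one p hMm FI) x

/-- **the embedding `x ↦ x(pτ)` of `F = ℚ̄ F₁(M)`** in the ambient field of level `m₀ p`. -/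
def embOneB : ↥(FOneBar M) →ₐ[Kbar] LHb (m₀ * p) :=
  embAbs (genInRange_oneB p hMm FI)

/-- `expLHb (embOneB x) = x(u^{m p})`. -/
theorem expLHb_embOneB (x : ↥(FOneBar M)) :
    expLHb (m₀ * p) (embOneB p hMm FI x) =
      qExpand Kbar (m₀ * p * p) (x : LaurentSeries Kbar) :=
  e_embAbs (genInRange_oneB p hMm FI) x

include hMm FI in
/-- the generators of the field of level `Γ₁(M) ∩ Γ₀(p)` are expansions. -/
theorem genInRange_oneP :
    GenInRange (expLHb (m₀ * p)) (qExpandAlgHomC Kbar (m₀ * p))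
      ((FOne M : Set (LaurentSeries ℚ)) ∪ (qExpand ℚ p '' (FOne M))) := by
  rintro g (hg | ⟨y, hy, rfl⟩)
  · exact theta_coeffEmb_mem_fieldRange (genInRange_one p hMm FI) hg
  · have h1 := theta_coeffEmb_mem_fieldRange (genInRange_oneB p hMm FI) hy
    rw [qExpandAlgHomC_apply] at h1 ⊢
    rw [coeffEmb_qExpand_w, qExpand_qExpand]
    exact h1

/-- **the embedding of `F' = ℚ̄ F(Γ₁(M) ∩ Γ₀(p))`** in the ambient field of level `m₀ p`. -/
def embOneP : ↥(laurentBaseChange Kbar (FOneP M p)) →ₐ[Kbar] LHb (m₀ * p) :=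
  embAbs (genInRange_oneP p hMm FI)

/-- `expLHb (embOneP x) = x(u^m)`   (`hex` of K4). -/
theorem expLHb_embOneP (x : ↥(laurentBaseChange Kbar (FOneP M p))) :
    expLHb (m₀ * p) (embOneP p hMm FI x) = qExpand Kbar (m₀ * p) (x : LaurentSeries Kbar) :=
  e_embAbs (genInRange_oneP p hMm FI) x

/-- `φ' ∘ α = φ`   (`hα` of K4). -/
theorem embOneP_alpha (x : ↥(FOneBar M)) :
    embOneP p hMm FI (qSeriesAlpha Kbar (FOne_le_FOneP M p) x) = embOne p hMm FI x := by
  apply expLHb_injective (m₀ * p)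
  rw [expLHb_embOneP, expLHb_embOne, coe_qSeriesAlpha]

/-- `φ' ∘ β = (x ↦ x(pτ))`. -/
theorem embOneP_beta (x : ↥(FOneBar M)) :
    embOneP p hMm FI
        (qSeriesBeta Kbar p (fun _ hy => qExpand_mem_FOneP M p hy) x) = embOneB p hMm FI x := by
  apply expLHb_injective (m₀ * p)
  rw [expLHb_embOneP, expLHb_embOneB, coe_qSeriesBeta, qExpand_qExpand]

end Emb

end Fermat.Agent.S48WKron
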