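/-
S48 wall (W), block G, part G-PORT / P6 Kron, seat K2 EMB (helper42), the FIXERS.

* `smul_embOne_of_mem_Gamma1`  (`hΓ1`): `Γ₁(M)` fixes `φ(F)` pointwise;
* `smul_embOneB_of_fix`, `smul_embOneP_of_fix` (`hS`): an element `γ ∈ Γ₀(p)` which fixes `φ(F)`
  pointwise fixes `φ'(F')` pointwise (`p` prime to `M`).
No identification of the fixer with `± Γ₁(M)` is needed: `γ` fixes `j_d` (`d ∣ M`), so
`γ ∈ Γ₀(M)`, and it fixes the `f_a`, so `f_{a δ} = f_a` (`δ = (γ⁻¹)₀₀`); the conjugate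
`diag(p,1) γ⁻¹ diag(p,1)⁻¹ ∈ Γ₀(M)` has the same diagonal.
-/
import Mathlib
import Fermat.Agent.S48.W.G.Kron.Emb
import Fermat.Agent.S24.EmbFStab

set_option autoImplicit false

noncomputable section

namespace Fermat.Agent.S48WKron

open UpperHalfPlane CongruenceSubgroup ModularCurve Fermat.Agent.S24 Fermat.Agent.S48W
  Fermat.Agent.S48WA1 Fermat.Agent.S24.EmbFStab Fermat.Agent.S24.Periods
open scoped MatrixGroups

theorem LHb.ofFun_congr {m : ℕ} [NeZero m] {f g : Fun} (hf : IsAHb m f) (hg : IsAHb m g)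
    (h : f = g) : LHb.ofFun f hf = LHb.ofFun g hg := by
  subst h
  rfl

theorem isAHb_jd (m d : ℕ) [NeZero m] [NeZero d] (hd : d ∣ m) : IsAHb m (jd d) :=
  AL_le_AHb m (jd_mem_AL hd)

theorem jdLHb_eq_ofFun (m d : ℕ) [NeZero m] [NeZero d] (hd : d ∣ m) :
    jdLHb m d hd = LHb.ofFun (jd d) (isAHb_jd m d hd) := rfl

theorem smul_jdLHb_iff (m d : ℕ) [NeZero m] [NeZero d] (hd : d ∣ m) (γ : SL(2, ℤ)) :
    γ • jdLHb m d hd = jdLHb m d hd ↔ γ • jd d = jd d := by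
  rw [jdLHb_eq_ofFun, LHb.smul_ofFun]
  constructor
  · intro h
    exact LHb.ofFun_injective _ _ h
  · intro h
    exact LHb.ofFun_congr _ _ h

section Fix

variable {M m₀ : ℕ} [NeZero M] [NeZero m₀] (p : ℕ) [NeZero p]
variable (hMm : M ∣ m₀) (FI : FrickeInputs M m₀)

include FI in
/-- `f_a` depends only on `a` modulo `M`. -/
theorem frickeOne_congr {a b : ℤ} (ha : ¬ (M : ℤ) ∣ a) (hab : (a : ZMod M) = (b : ZMod M)) :
    frickeOne M a = frickeOne M b := by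
  have hb : ¬ (M : ℤ) ∣ b := by
    intro h
    apply ha
    rw [← ZMod.intCast_zmod_eq_zero_iff_dvd] at h ⊢
    rw [hab, h]
  have h1 := FI.hasExp a ha
  have h2 := FI.hasExp b hb
  rw [hab] at h1
  exact h1.fun_unique h2

theorem smul_frAmb (a : ℤ) (ha : ¬ (M : ℤ) ∣ a) (γ : SL(2, ℤ)) :
    γ • frAmb p FI a ha = frAmb p FI a ha ↔ γ • frickeOne M a = frickeOne M a := by
  unfold frAmb
  rw [LHb.smul_ofFun]
  constructor
  · intro h
    exact LHb.ofFun_injective _ _ h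
  · intro h
    exact LHb.ofFun_congr _ _ h

/-- `f(pτ)`. -/
def scaleFun (p : ℕ) [NeZero p] (f : Fun) : Fun := fun τ => f (scale p τ)

theorem smul_frAmbB (a : ℤ) (ha : ¬ (M : ℤ) ∣ a) (γ : SL(2, ℤ)) :
    γ • frAmbB p FI a ha = frAmbB p FI a ha ↔
      γ • scaleFun p (frickeOne M a) = scaleFun p (frickeOne M a) := by
  have h1 : γ • frAmbB p FI a ha = LHb.ofFun (γ • scaleFun p (frickeOne M a))
      (((FI.isAHb a ha).comp_scale p).sl_smul γ) := LHb.smul_ofFun γ _ _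
  have h2 : frAmbB p FI a ha = LHb.ofFun (scaleFun p (frickeOne M a))
      ((FI.isAHb a ha).comp_scale p) := rfl
  rw [h1, h2]
  constructor
  · intro h
    exact LHb.ofFun_injective _ _ h
  · intro h
    exact LHb.ofFun_congr _ _ h

/-- the generators of `φ(F)`. -/
theorem mem_genSetAbs_one_iff (y : LHb (m₀ * p)) :
    y ∈ genSetAbs (expLHb (m₀ * p)) (qExpandAlgHomC Kbar (m₀ * p)) (genOne M) ↔
      (∃ (d : ℕ) (_ : NeZero d) (hd : d ∣ M),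
          y = jdLHb (m₀ * p) d ((hd.trans hMm).trans (dvd_mul_right m₀ p))) ∨
        ∃ (a : ℤ) (ha : ¬ (M : ℤ) ∣ a), y = frAmb p FI a ha := by
  constructor
  · rintro ⟨g, (⟨d, hdne, hd, rfl⟩ | ⟨a, ha, rfl⟩), hy⟩
    · left
      refine ⟨d, hdne, hd, ?_⟩
      apply expLHb_injective (m₀ * p)
      rw [hy, EmbFHom.qExpand_coeffEmb_jqd, expLHb_jdLHb]
    · right
      refine ⟨_, not_dvd_val ha, ?_⟩
      apply expLHb_injective (m₀ * p)
      rw [hy, expLHb_frAmb, cast_val, qExpandAlgHomC_apply]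
  · rintro (⟨d, hdne, hd, rfl⟩ | ⟨a, ha, rfl⟩)
    · refine ⟨_, Or.inl ⟨d, hdne, hd, rfl⟩, ?_⟩
      rw [EmbFHom.qExpand_coeffEmb_jqd, expLHb_jdLHb]
    · have ha0 : ((a : ℤ) : ZMod M) ≠ 0 := by
        intro h
        exact ha ((ZMod.intCast_zmod_eq_zero_iff_dvd a M).mp h)
      refine ⟨_, Or.inr ⟨(a : ZMod M), ha0, rfl⟩, ?_⟩
      rw [expLHb_frAmb, qExpandAlgHomC_apply]

include hMm in
/-- the generators of `φ_β(F)`. -/
theorem mem_genSetAbs_oneB (y : LHb (m₀ * p))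
    (hy : y ∈ genSetAbs (expLHb (m₀ * p)) (qExpandAlgHomC Kbar (m₀ * p * p)) (genOne M)) :
    (∃ (d : ℕ) (_ : NeZero d) (_ : d ∣ M) (_ : NeZero (p * d)) (hd' : p * d ∣ m₀ * p),
          y = jdLHb (m₀ * p) (p * d) hd') ∨
        ∃ (a : ℤ) (ha : ¬ (M : ℤ) ∣ a), y = frAmbB p FI a ha := by
  obtain ⟨g, (⟨d, hdne, hd, rfl⟩ | ⟨a, ha, rfl⟩), hy⟩ := hy
  · left
    have hne : NeZero (p * d) := ⟨Nat.mul_ne_zero (NeZero.ne p) (NeZero.ne d)⟩
    have hd' : p * d ∣ m₀ * p := by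
      rw [mul_comm p d]
      exact Nat.mul_dvd_mul (hd.trans hMm) dvd_rfl
    refine ⟨d, hdne, hd, hne, hd', ?_⟩
    apply expLHb_injective (m₀ * p)
    rw [hy, EmbFHom.qExpand_coeffEmb_jqd, expLHb_jdLHb,
      qExpand_congr (show m₀ * p * p * d = m₀ * p * (p * d) by ring)]
  · right
    refine ⟨_, not_dvd_val ha, ?_⟩
    apply expLHb_injective (m₀ * p)
    rw [hy, expLHb_frAmbB, cast_val, qExpandAlgHomC_apply]

/-- `γ` fixes `φ(F)` iff `γ ∈ Γ₀(M)` and `γ` fixes the `f_a`. -/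
theorem smul_embOne_iff (γ : SL(2, ℤ)) :
    (∀ x : ↥(FOneBar M), γ • embOne p hMm FI x = embOne p hMm FI x) ↔
      γ ∈ Gamma0 M ∧ ∀ a : ℤ, ¬ (M : ℤ) ∣ a → γ • frickeOne M a = frickeOne M a := by
  refine (smul_embAbs_iff (genInRange_one p hMm FI) γ).trans ?_
  rw [mem_Gamma0_iff_forall_smul_jd]
  constructor
  · intro h
    refine ⟨fun d hdne hd => ?_, fun a ha => ?_⟩
    · have h1 := h _ ((mem_genSetAbs_one_iff p hMm FI _).mpr (Or.inl ⟨d, hdne, hd, rfl⟩))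
      exact (smul_jdLHb_iff _ _ _ γ).mp h1
    · have h1 := h _ ((mem_genSetAbs_one_iff p hMm FI _).mpr (Or.inr ⟨a, ha, rfl⟩))
      exact (smul_frAmb p FI a ha γ).mp h1
  · rintro ⟨h1, h2⟩ y hy
    rcases (mem_genSetAbs_one_iff p hMm FI y).mp hy with ⟨d, hdne, hd, rfl⟩ | ⟨a, ha, rfl⟩
    · exact (smul_jdLHb_iff _ _ _ γ).mpr (h1 d hdne hd)
    · exact (smul_frAmb p FI a ha γ).mpr (h2 a ha)

include FI in
/-- `Γ₁(M)` fixes the `f_a`. -/
theorem smul_frickeOne_of_mem_Gamma1 {γ : SL(2, ℤ)} (hγ : γ ∈ Gamma1 M) (a : ℤ)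
    (ha : ¬ (M : ℤ) ∣ a) : γ • frickeOne M a = frickeOne M a := by
  have hinv : γ⁻¹ ∈ Gamma1 M := inv_mem hγ
  have h0 : γ⁻¹ ∈ Gamma0 M := by
    rw [Gamma1_mem] at hinv
    rw [Gamma0_mem]
    exact hinv.2.2
  have h00 : (((γ⁻¹ : SL(2, ℤ)) 0 0 : ℤ) : ZMod M) = 1 := by
    rw [Gamma1_mem] at hinv
    exact hinv.1
  ext τ
  rw [Fun.sl_smul_apply, FI.smul a γ⁻¹ h0 τ]
  have hab : ((a : ℤ) : ZMod M) = ((a * (γ⁻¹ : SL(2, ℤ)) 0 0 : ℤ) : ZMod M) := by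
    push_cast
    rw [h00, mul_one]
  rw [← frickeOne_congr FI ha hab]

/-- **`hΓ1`**: `Γ₁(M)` fixes `φ(F)` pointwise. -/
theorem smul_embOne_of_mem_Gamma1 {γ : SL(2, ℤ)} (hγ : γ ∈ Gamma1 M) (x : ↥(FOneBar M)) :
    γ • embOne p hMm FI x = embOne p hMm FI x := by
  have h0 : γ ∈ Gamma0 M := by
    rw [Gamma1_mem] at hγ
    rw [Gamma0_mem]
    exact hγ.2.2
  exact (smul_embOne_iff p hMm FI γ).mpr
    ⟨h0, fun a ha => smul_frickeOne_of_mem_Gamma1 FI hγ a ha⟩ x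

/-- an element of `Γ₀(p)` which fixes `φ(F)` fixes `φ_β(F)` (`p` prime to `M`). -/
theorem smul_embOneB_of_fix (hpM : Nat.Coprime p M) {γ : SL(2, ℤ)}
    (hfix : ∀ x : ↥(FOneBar M), γ • embOne p hMm FI x = embOne p hMm FI x)
    (hγp : γ ∈ Gamma0 p) (x : ↥(FOneBar M)) :
    γ • embOneB p hMm FI x = embOneB p hMm FI x := by
  obtain ⟨h0, hfr⟩ := (smul_embOne_iff p hMm FI γ).mp hfix
  refine (smul_embAbs_iff (genInRange_oneB p hMm FI) γ).mpr ?_ x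
  intro y hy
  have hM10 : (M : ℤ) ∣ γ 1 0 := dvd_of_mem_Gamma0 h0
  have hp10 : (p : ℤ) ∣ γ 1 0 := dvd_of_mem_Gamma0 hγp
  have hcop : IsCoprime (p : ℤ) (M : ℤ) := Nat.isCoprime_iff_coprime.mpr hpM
  rcases mem_genSetAbs_oneB p hMm FI y hy with ⟨d, hdne, hd, hne, hd', rfl⟩ | ⟨a, ha, rfl⟩
  · rw [smul_jdLHb_iff]
    apply smul_jd_of_mem_Gamma0
    apply mem_Gamma0_of_dvd
    have hd10 : (d : ℤ) ∣ γ 1 0 := (Int.natCast_dvd_natCast.mpr hd).trans hM10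
    have hcop' : IsCoprime (p : ℤ) (d : ℤ) :=
      hcop.of_isCoprime_of_dvd_right (Int.natCast_dvd_natCast.mpr hd)
    have := hcop'.mul_dvd hp10 hd10
    push_cast
    exact this
  · rw [smul_frAmbB]
    -- the conjugate of `γ⁻¹`
    have hinv0 : γ⁻¹ ∈ Gamma0 M := inv_mem h0
    have hinvp : γ⁻¹ ∈ Gamma0 p := inv_mem hγp
    obtain ⟨c', hc⟩ := dvd_of_mem_Gamma0 hinvp
    have hMc' : (M : ℤ) ∣ c' := by
      have h1 : (M : ℤ) ∣ (p : ℤ) * c' := by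
        rw [← hc]
        exact dvd_of_mem_Gamma0 hinv0
      exact hcop.symm.dvd_of_dvd_mul_left h1
    have hconj0 : scaleConj p γ⁻¹ c' hc ∈ Gamma0 M := by
      apply mem_Gamma0_of_dvd
      exact hMc'
    have e00 : (scaleConj p γ⁻¹ c' hc) 0 0 = (γ⁻¹ : SL(2, ℤ)) 0 0 := rfl
    -- `f_{a δ} = f_a`
    have hδ : frickeOne M (a * (γ⁻¹ : SL(2, ℤ)) 0 0) = frickeOne M a := by
      ext τ
      rw [← FI.smul a γ⁻¹ hinv0 τ]
      have := congrArg (fun f : Fun => f τ) (hfr a ha)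
      simpa only [Fun.sl_smul_apply] using this
    funext τ
    show frickeOne M a (scale p (γ⁻¹ • τ)) = frickeOne M a (scale p τ)
    rw [scale_smul_eq p γ⁻¹ c' hc τ, FI.smul a _ hconj0, e00, hδ]

/-- **`hS`**: an element of `Γ₀(p)` which fixes `φ(F)` pointwise fixes `φ'(F')` pointwise
(`p` prime to `M`). -/
theorem smul_embOneP_of_fix (hpM : Nat.Coprime p M) {γ : SL(2, ℤ)}
    (hfix : ∀ x : ↥(FOneBar M), γ • embOne p hMm FI x = embOne p hMm FI x)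
    (hγp : γ ∈ Gamma0 p) (x' : ↥(laurentBaseChange Kbar (FOneP M p))) :
    γ • embOneP p hMm FI x' = embOneP p hMm FI x' := by
  refine (smul_embAbs_iff (genInRange_oneP p hMm FI) γ).mpr ?_ x'
  rintro y ⟨g, (hg | ⟨x, hx, rfl⟩), hy⟩
  · have h1 : embOne p hMm FI ⟨coeffEmb Kbar g, coeffEmb_mem_laurentBaseChange Kbar hg⟩ = y := by
      apply expLHb_injective (m₀ * p)
      rw [expLHb_embOne, hy, qExpandAlgHomC_apply]
    rw [← h1]
    exact hfix _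
  · have h1 : embOneB p hMm FI ⟨coeffEmb Kbar x, coeffEmb_mem_laurentBaseChange Kbar hx⟩ = y := by
      apply expLHb_injective (m₀ * p)
      rw [expLHb_embOneB, hy, qExpandAlgHomC_apply, coeffEmb_qExpand_w, qExpand_qExpand]
    rw [← h1]
    exact smul_embOneB_of_fix p hMm FI hpM hfix hγp _

end Fix

end Fermat.Agent.S48WKron
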