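/-
S48 wall (W), block G, part G-PORT, seat P6 Kron, sub-seat K1a FRAMB (helper1): FINAL,
unconditional (K1b `IsAHb.comp_scale` of helper24 plugged in).
-/
import Mathlib
import Fermat.Agent.S48.W.G.Kron.FrickeAmb
import Fermat.Agent.S48.W.G.Kron.Scale

set_option autoImplicit false

noncomputable section

namespace Fermat.Agent.S48WKron

open UpperHalfPlane Fermat.Agent.S24 Fermat.Agent.S48WA1
open scoped MatrixGroups Manifold

/-- **K1a**: `frickeOne M a` is of level `M * M`. -/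
theorem isAHb_frickeOne_final (M : ℕ) [NeZero M] (a : ℤ) (ha : ¬ (M : ℤ) ∣ a) :
    IsAHb (M * M) (frickeOne M a) :=
  IsAHb.comp_scale M (isAHb_frickeFun M a 0 (isNZ_zero_right ha))

/-- **K1a**: `frickeOne M a ∘ scale p` is of level `M * M * p`. -/
theorem isAHb_frickeOne_scale_final (M p : ℕ) [NeZero M] [NeZero p] (a : ℤ)
    (ha : ¬ (M : ℤ) ∣ a) :
    IsAHb (M * M * p) (fun τ => frickeOne M a (scale p τ)) :=
  haveI : NeZero (M * M) := ⟨mul_ne_zero (NeZero.ne M) (NeZero.ne M)⟩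
  IsAHb.comp_scale p (isAHb_frickeOne_final M a ha)

/-- `frickeOne M a` in every level divisible by `M * M`. -/
theorem isAHb_frickeOne_of_dvd (M m : ℕ) [NeZero M] [NeZero m] (h : M * M ∣ m) (a : ℤ)
    (ha : ¬ (M : ℤ) ∣ a) : IsAHb m (frickeOne M a) :=
  haveI : NeZero (M * M) := ⟨mul_ne_zero (NeZero.ne M) (NeZero.ne M)⟩
  IsAHb.mono h (isAHb_frickeOne_final M a ha)

end Fermat.Agent.S48WKron
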