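/-
S48 wall (W), block G, part G-PORT, P6 Kron, seat K5 WIRE (helper37):

  `normProductOne M : NormProductOne M`   (UNCONDITIONAL)

the twisted norm product formula `(T_p y)(q^p) = y(q^{p²}) · ∏_{b<p} (⟨p⟩ y)(ζ^b q)` on the function
field of `X₁(M)` over `ℚ̄`, for every prime `p ∤ M` and every diamond automorphism `⟨p⟩`.

Wiring of
* K0 `Amb.lean` (helper24): the ambient field `LHb m` of level `m = M² p` with its `SL₂(ℤ)`-action;
* K1 `FrickeAmbFinal.lean` (helper1) + hub A1: the Fricke functions in the ambient ring;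
* K2 `Emb.lean`, `EmbStab.lean` (helper42): the embeddings `φ`, `φ'` and their stabilisers;
* K3a `Conj.lean` (helper88): the expansions of the conjugates; K3b `Coset.lean` (helper70): the
  coset representatives `γ_b = T^b δ⁻¹`;
* K4 `AlgAbs.lean` (helper37): the abstract norm product formula.
-/
import Mathlib
import Fermat.Agent.S48.W.G.Kron.AlgAbs
import Fermat.Agent.S48.W.G.Kron.EmbStab
import Fermat.Agent.S48.W.G.Kron.Conj
import Fermat.Agent.S48.W.G.Kron.FrickeAmbFinal
import Fermat.Agent.S48.W.A1.Final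
import Fermat.Agent.S48.W.A1.Slash
import Fermat.Agent.S48.W.H.Defs

set_option autoImplicit false
set_option linter.style.haveILetI false

noncomputable section

namespace Fermat.Agent.S48WKron

open ModularCurve AlgebraicCurve Fermat.Agent.S48W Fermat.Agent.Kronecker CongruenceSubgroup
  Fermat.Agent.S24 Fermat.Agent.S48WA1
open scoped MatrixGroups

/-- **K1**: the analytic inputs on the Fricke functions, at the ambient level `M²`. -/
theorem frickeInputs_final (M : ℕ) [NeZero M] [NeZero (M * M)] : FrickeInputs M (M * M) where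
  isAHb := fun a ha => isAHb_frickeOne_final M a ha
  hasExp := fun a ha => frickeOneExp M a ha
  smul := fun a γ hγ τ => frickeOneSmul M a γ hγ τ

/-- `j` has a simple pole at `q = 0`. -/
theorem coeff_jOneBar_ne_zero (M : ℕ) [NeZero M] :
    ((jOneBar M : FOneBar M) : LaurentSeries Kbar).coeff (-1) ≠ 0 := by
  show (coeffEmb Kbar jq).coeff (-1) ≠ 0
  rw [coeffEmb_coeff, coeff_jq_neg_one, map_one]
  exact one_ne_zero

/-- a diamond automorphism fixes `j`. -/
theorem isDiamond_jOneBar {M : ℕ} [NeZero M] {d : (ZMod M)ˣ} {δ : FOneBar M ≃ₐ[Kbar] FOneBar M}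
    (hδ : IsDiamond M d δ) : δ (jOneBar M) = jOneBar M := by
  have hmem : jq ∈ divisorExpansions M := by
    have h := mem_divisorExpansions M (d := 1) (one_dvd M)
    rwa [qExpand_one_apply] at h
  exact hδ.1 jq hmem (jOneBar M).2

/-- the image of `j` in the ambient field. -/
theorem embOne_jOneBar {M m₀ : ℕ} [NeZero M] [NeZero m₀] (p : ℕ) [NeZero p] (hMm : M ∣ m₀)
    (FI : FrickeInputs M m₀) : embOne p hMm FI (jOneBar M) = jLHb (m₀ * p) := by
  apply expLHb_injective (m₀ * p)
  rw [expLHb_embOne, ← jdLHb_one, expLHb_jdLHb, qExpand_congr (mul_one (m₀ * p))]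
  show qExpand Kbar (m₀ * p) (coeffEmb Kbar jq) = _
  rw [coeffEmb_jq_a1]

/-- **K5 = the twisted norm product formula at level `Γ₁(M)`** (P6 Kron, unconditional). -/
theorem normProductOne (M : ℕ) [NeZero M] : Fermat.Agent.S48WPort.NormProductOne M := by
  intro p _ hp hpM δ hδ
  haveI : NeZero (M * M) := ⟨mul_ne_zero (NeZero.ne M) (NeZero.ne M)⟩
  haveI : NeZero (M * M * p) := ⟨mul_ne_zero (NeZero.ne (M * M)) (NeZero.ne p)⟩
  have FI : FrickeInputs M (M * M) := frickeInputs_final M
  have hMm : M ∣ M * M := dvd_mul_right M M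
  have hj : embOne p hMm FI (jOneBar M) = jLHb (M * M * p) := embOne_jOneBar p hMm FI
  refine normProductGen_of_abstract (FOne_le_FOneP M p) p hp
    (fun _ hy => qExpand_mem_FOneP M p hy) δ (Γ := SL(2, ℤ)) (L := LHb (M * M * p)) (M * M)
    (embOne p hMm FI) (embOneP p hMm FI) (embOneP_alpha p hMm FI)
    (expLHb (M * M * p) : LHb (M * M * p) →+* LaurentSeries Kbar)
    (fun x => expLHb_embOneP p hMm FI x) (jOneBar M)
    (exists_finiteIndex_fixing_LHb (M * M * p)) ?_ ?_ (kronGamma M p hpM) ?_ ?_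
    (kronZeta M p) (kronZeta_isPrimitiveRoot M p)
    (kron_hconj_ringHom M p hpM δ hδ (embOneP p hMm FI)
      (fun x => expLHb_embOneP p hMm FI x))
    (jOneBar M) (isDiamond_jOneBar hδ) (coeff_jOneBar_ne_zero M)
  · -- `ht`
    intro g
    rw [hj]
    exact smul_jLHb _ g
  · -- `hfix`
    intro x hx
    rw [hj]
    exact mem_adjoin_jLHb_of_invariant _ x hx
  · -- `hγ`
    intro b x
    exact smul_embOne_of_mem_Gamma1 p hMm FI (kronGamma_mem_Gamma1 M p hpM b) x
  · -- `hcov`
    intro g hg
    have hH : Gamma1 M ≤ algFixer (fun x => embOne p hMm FI x) := fun γ hγ x =>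
      smul_embOne_of_mem_Gamma1 p hMm FI hγ x
    rcases kron_hcov_smul_of M p hp hpM (algFixer (fun x => embOne p hMm FI x)) hH
        (Set.range (embOneP p hMm FI))
        (fun h hh y hy => by
          obtain ⟨x', rfl⟩ := hy
          exact smul_embOneP_of_fix p hMm FI hpM hh.1 hh.2 x')
        g hg with h | ⟨b, hb, h⟩
    · exact Or.inl fun x' => h _ ⟨x', rfl⟩
    · exact Or.inr ⟨b, hb, fun x' => h _ ⟨x', rfl⟩⟩

end Fermat.Agent.S48WKron
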